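/-
GATE-E / E8.6 IRR2, give-away leaves (helper90; GRAPH v0 of helper10, amendments A1/A2).

Target of E8.6: `HasTransvectionModP (W.map (Int.castRingHom ℚ)) p`
(`Fermat.Agent.GB.Top.FreyTwo.Transvection`), i.e. `∃ σ, ρ̄ σ ≠ 1 ∧ (ρ̄ σ - 1) ^ 2 = 0`.

This file:

* (a) linear algebra, Mathlib only: `V` a `ZMod p`-module with `p ^ 2` elements,
  `g : Module.End (ZMod p) V` with `g ^ p = 1`  ⟹  `(g - 1) ^ 2 = 0`
  (`sub_one_sq_eq_zero_of_pow_eq_one`);
* (a2) hence any `σ` with `ρ̄ σ ≠ 1`, `(ρ̄ σ) ^ p = 1` is a transvection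
  (`hasTransvectionModP_of_pow_eq_one`), and by Cauchy so is some `σ` as soon as `p` divides the
  order of the image `GQ ⧸ ker ρ̄` (`hasTransvectionModP_of_dvd_card`);
* (b) `W` semistable, `q ≠ p`, `ρ̄` ramified at `q`  ⟹  transvection
  (`hasTransvectionModP_of_ramified`, from `GE/Top/ECFinal.unipInertia`);
* (b2) the contrapositive package used by the prime-to-`p` case of E8.6
  (`unramified_and_not_dvd_of_not_hasTransvection`).
-/
import Fermat.Agent.GB.Top.FreyTwo.Transvection
import Fermat.Agent.GE.Top.ECFinal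

set_option autoImplicit false
set_option linter.unusedSectionVars false
set_option linter.unusedVariables false

namespace Fermat.Agent.GE8.Irr2.Transv

open Module Polynomial

/-! ### (a) linear algebra over `ZMod p` -/

section LinAlg

variable {p : ℕ} [hp : Fact p.Prime] {V : Type*} [AddCommGroup V] [Module (ZMod p) V]

/-- a `ZMod p`-module of cardinality `p ^ 2` is finite of rank `2`. -/
theorem finrank_eq_two_of_card (hcard : Nat.card V = p ^ 2) :
    Module.Finite (ZMod p) V ∧ finrank (ZMod p) V = 2 := by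
  have hfin : Finite V := by
    apply Nat.finite_of_card_ne_zero
    rw [hcard]
    exact pow_ne_zero 2 hp.out.ne_zero
  have hmf : Module.Finite (ZMod p) V := Module.Finite.of_finite
  refine ⟨hmf, ?_⟩
  have h := Module.natCard_eq_pow_finrank (K := ZMod p) (V := V)
  rw [hcard, Nat.card_zmod] at h
  exact (Nat.pow_right_injective hp.out.two_le h).symm

/-- the endomorphism ring of a nonzero `ZMod p`-module has characteristic `p`. -/
theorem charP_end [Nontrivial V] : CharP (Module.End (ZMod p) V) p := by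
  refine ⟨fun n => ?_⟩
  rw [← ZMod.natCast_eq_zero_iff n p]
  constructor
  · intro h
    have h1 : ((n : ZMod p)) • (1 : Module.End (ZMod p) V) = 0 := by
      rw [← h, Nat.cast_smul_eq_nsmul, nsmul_eq_mul, mul_one]
    by_contra hne
    have := (smul_eq_zero.1 h1).resolve_left hne
    exact one_ne_zero this
  · intro h
    have : ((n : ZMod p)) • (1 : Module.End (ZMod p) V) = 0 := by rw [h, zero_smul]
    rwa [Nat.cast_smul_eq_nsmul, nsmul_eq_mul, mul_one] at this

/-- **an element of order dividing `p` of `GL(V)`, `#V = p ^ 2`, is unipotent of level `2`.** -/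
theorem sub_one_sq_eq_zero_of_pow_eq_one (hcard : Nat.card V = p ^ 2)
    (g : Module.End (ZMod p) V) (hg : g ^ p = 1) : (g - 1) ^ 2 = 0 := by
  obtain ⟨hmf, hrk⟩ := finrank_eq_two_of_card hcard
  have hnt : Nontrivial V := by
    apply Module.nontrivial_of_finrank_pos (R := ZMod p)
    rw [hrk]; norm_num
  have : CharP (Module.End (ZMod p) V) p := charP_end
  have hpow : (g - 1) ^ p = 0 := by
    rw [sub_pow_char_of_commute p (Commute.one_right g), hg, one_pow, sub_self]
  have hnil : IsNilpotent (g - 1) := ⟨p, hpow⟩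
  have hcp := IsNilpotent.charpoly_eq_X_pow_finrank hnil
  rw [hrk] at hcp
  have hch := LinearMap.aeval_self_charpoly (g - 1)
  rw [hcp, map_pow, aeval_X] at hch
  exact hch

end LinAlg

/-! ### (a2) elements of order `p` in the image of `ρ̄` -/

open WeierstrassCurve WeierstrassCurve.Affine WeierstrassCurve.Affine.Point
open Fermat.Agent.S51_helper12 Fermat.Agent.GB.Top.FreyTwo.Transvection

/-- the mod-`p` representation of `E` (prelude `galoisRepModuleEnd`). -/
noncomputable abbrev rhoBar (E : WeierstrassCurve ℚ) (p : ℕ) :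
    GalQ →* Module.End (ZMod p) (Tors E p) :=
  galoisRepModuleEnd (K := Qbar) ℚ E p

section Order

variable (E : WeierstrassCurve ℚ) (p : ℕ) [hp : Fact p.Prime]

/-- `ρ̄ σ ≠ 1`, `(ρ̄ σ) ^ p = 1`  ⟹  `σ` is a transvection. -/
theorem hasTransvectionModP_of_pow_eq_one (hcard : Nat.card (Tors E p) = p ^ 2) (σ : GalQ)
    (h1 : rhoBar E p σ ≠ 1) (hpow : rhoBar E p σ ^ p = 1) : HasTransvectionModP E p :=
  ⟨σ, h1, sub_one_sq_eq_zero_of_pow_eq_one hcard _ hpow⟩

/-- the same with `σ ^ p ∈ ker ρ̄`. -/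
theorem hasTransvectionModP_of_pow_mem_ker (hcard : Nat.card (Tors E p) = p ^ 2) (σ : GalQ)
    (h1 : σ ∉ (rhoBar E p).ker) (hpow : σ ^ p ∈ (rhoBar E p).ker) : HasTransvectionModP E p := by
  refine hasTransvectionModP_of_pow_eq_one E p hcard σ (fun h => h1 (MonoidHom.mem_ker.2 h)) ?_
  rw [← map_pow]
  exact MonoidHom.mem_ker.1 hpow

/-- the image `GQ ⧸ ker ρ̄` is finite. -/
theorem finite_quotient_ker (hcard : Nat.card (Tors E p) = p ^ 2) :
    Finite (GalQ ⧸ (rhoBar E p).ker) := by
  have hfin : Finite (Tors E p) := by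
    apply Nat.finite_of_card_ne_zero
    rw [hcard]
    exact pow_ne_zero 2 hp.out.ne_zero
  have : Finite (Module.End (ZMod p) (Tors E p)) :=
    Finite.of_injective (fun f : Module.End (ZMod p) (Tors E p) => (f : Tors E p → Tors E p))
      DFunLike.coe_injective
  refine Finite.of_injective
    (fun x : GalQ ⧸ (rhoBar E p).ker => Quotient.liftOn' x (fun σ => rhoBar E p σ) ?_) ?_
  · intro a b hab
    have hab' : a⁻¹ * b ∈ (rhoBar E p).ker := QuotientGroup.leftRel_apply.1 hab
    have h := MonoidHom.mem_ker.1 hab'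
    rw [map_mul] at h
    have h2 : rhoBar E p a * (rhoBar E p a⁻¹ * rhoBar E p b) = rhoBar E p a * 1 := by rw [h]
    rw [← mul_assoc, ← map_mul, mul_inv_cancel, map_one, one_mul, mul_one] at h2
    exact h2.symm
  · intro x y
    induction x using Quotient.inductionOn' with
    | h a =>
      induction y using Quotient.inductionOn' with
      | h b =>
        intro hxy
        change rhoBar E p a = rhoBar E p b at hxy
        apply Quotient.sound'
        apply QuotientGroup.leftRel_apply.2
        apply MonoidHom.mem_ker.2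
        rw [map_mul, ← hxy, ← map_mul, inv_mul_cancel, map_one]

/-- **Cauchy**: `p ∣ #(im ρ̄)`  ⟹  transvection. -/
theorem hasTransvectionModP_of_dvd_card (hcard : Nat.card (Tors E p) = p ^ 2)
    (hdvd : p ∣ Nat.card (GalQ ⧸ (rhoBar E p).ker)) : HasTransvectionModP E p := by
  have := finite_quotient_ker E p hcard
  obtain ⟨x, hx⟩ := exists_prime_orderOf_dvd_card' (G := GalQ ⧸ (rhoBar E p).ker) p hdvd
  induction x using Quotient.inductionOn' with
  | h σ =>
    have hx1 : (QuotientGroup.mk σ : GalQ ⧸ (rhoBar E p).ker) ≠ 1 := by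
      intro h
      change (QuotientGroup.mk σ : GalQ ⧸ (rhoBar E p).ker) = 1 at h
      have hx' : orderOf (QuotientGroup.mk σ : GalQ ⧸ (rhoBar E p).ker) = p := hx
      rw [h, orderOf_one] at hx'
      exact hp.out.one_lt.ne hx'
    have hxp : (QuotientGroup.mk σ : GalQ ⧸ (rhoBar E p).ker) ^ p = 1 := by
      have hx' : orderOf (QuotientGroup.mk σ : GalQ ⧸ (rhoBar E p).ker) = p := hx
      have h2 := pow_orderOf_eq_one (QuotientGroup.mk σ : GalQ ⧸ (rhoBar E p).ker)
      rwa [hx'] at h2
    refine hasTransvectionModP_of_pow_mem_ker E p hcard σ ?_ ?_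
    · intro h
      exact hx1 ((QuotientGroup.eq_one_iff σ).2 h)
    · rw [← QuotientGroup.eq_one_iff, QuotientGroup.mk_pow]
      exact hxp

/-- contrapositive: without a transvection the image has no element of order `p`. -/
theorem eq_one_of_pow_eq_one_of_not_hasTransvection (hcard : Nat.card (Tors E p) = p ^ 2)
    (hno : ¬ HasTransvectionModP E p) (σ : GalQ) (hpow : rhoBar E p σ ^ p = 1) :
    rhoBar E p σ = 1 := by
  by_contra h1
  exact hno (hasTransvectionModP_of_pow_eq_one E p hcard σ h1 hpow)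

/-- contrapositive: without a transvection the image has order prime to `p`. -/
theorem not_dvd_card_of_not_hasTransvection (hcard : Nat.card (Tors E p) = p ^ 2)
    (hno : ¬ HasTransvectionModP E p) : ¬ p ∣ Nat.card (GalQ ⧸ (rhoBar E p).ker) :=
  fun h => hno (hasTransvectionModP_of_dvd_card E p hcard h)

end Order

/-! ### (b) semistable curves: ramification away from `p` is a transvection -/

section Semistable

open Fermat.Agent.GE.ECAssembly

variable (W : WeierstrassCurve ℤ) {p : ℕ}

/-- `#W[p] = p ^ 2` in the prelude shape. -/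
theorem card_tors (hΔ : W.Δ ≠ 0) (hp : p.Prime) :
    Nat.card (Tors (W.map (Int.castRingHom ℚ)) p) = p ^ 2 :=
  Fermat.Agent.GE.Tors.card_torsionBy (eqb_Δ_ne_zero W hΔ) p hp.one_le

/-- inertia at `q ≠ p` acts unipotently on `W[p]` (semistable `W`), `galoisRepModuleEnd` form. -/
theorem rhoBar_sub_one_sq_of_inertia (hss : W.IsSemistableModel) (hΔ : W.Δ ≠ 0) (hp : p.Prime)
    {q : ℕ} (hq : q.Prime) (hqp : q ≠ p) {A : ValuationSubring Qbar} (hA : A.LiesOverPrime q)
    {σ : GalQ} (hσ : σ ∈ A.inertiaSubgroupIn ℚ) :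
    (rhoBar (W.map (Int.castRingHom ℚ)) p σ - 1) ^ 2 = 0 := by
  have hU := Fermat.Agent.GE.ECFinal.unipInertia W hss hΔ hp
  refine LinearMap.ext fun t => ?_
  have ht : (p ^ 1) • (t : (EQb W).Point) = 0 := by
    have := t.2
    rw [Submodule.mem_torsionBy_iff, natCast_zsmul] at this
    rw [pow_one]
    exact this
  have h := hU 1 q hq hqp A hA σ hσ (t : (EQb W).Point) ht
  rw [pow_two, Module.End.mul_apply, LinearMap.sub_apply, LinearMap.sub_apply,
    Module.End.one_apply, Module.End.one_apply, galoisRepModuleEnd_apply,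
    galoisRepModuleEnd_apply, LinearMap.zero_apply]
  apply Subtype.ext
  rw [Submodule.coe_sub, Submodule.coe_zero, coe_smul_tors, Submodule.coe_sub, coe_smul_tors]
  rw [h, sub_self]

/-- **(b)** `W` semistable, `ρ̄_{W,p}` ramified at some `q ≠ p`  ⟹  transvection. -/
theorem hasTransvectionModP_of_ramified (hss : W.IsSemistableModel) (hΔ : W.Δ ≠ 0) (hp : p.Prime)
    {q : ℕ} (hq : q.Prime) (hqp : q ≠ p) {A : ValuationSubring Qbar} (hA : A.LiesOverPrime q)
    {σ : GalQ} (hσ : σ ∈ A.inertiaSubgroupIn ℚ)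
    (h1 : rhoBar (W.map (Int.castRingHom ℚ)) p σ ≠ 1) :
    HasTransvectionModP (W.map (Int.castRingHom ℚ)) p :=
  ⟨σ, h1, rhoBar_sub_one_sq_of_inertia W hss hΔ hp hq hqp hA hσ⟩

/-- the same from the failure of the prelude predicate `GaloisRepUnramifiedAt`. -/
theorem hasTransvectionModP_of_not_unramifiedAt (hss : W.IsSemistableModel) (hΔ : W.Δ ≠ 0)
    (hp : p.Prime) {q : ℕ} (hq : q.Prime) (hqp : q ≠ p)
    (hram : ¬ GaloisRepUnramifiedAt (K := Qbar) ℚ (W.map (Int.castRingHom ℚ)).toAffine p q) :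
    HasTransvectionModP (W.map (Int.castRingHom ℚ)) p := by
  unfold GaloisRepUnramifiedAt at hram
  push Not at hram
  obtain ⟨A, hA, σ, hσ, x, hx⟩ := hram
  refine hasTransvectionModP_of_ramified W hss hΔ hp hq hqp hA hσ (fun h => hx ?_)
  have := LinearMap.congr_fun h x
  rwa [galoisRepModuleEnd_apply, Module.End.one_apply] at this

/-- **(b2)** the contrapositive package: if `ρ̄_{W,p}` (`W` semistable) contains no transvection,
then it is unramified at every prime `q ≠ p`, its image has no element of order `p`, and the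
order of its image is prime to `p`. -/
theorem unramified_and_not_dvd_of_not_hasTransvection (hss : W.IsSemistableModel) (hΔ : W.Δ ≠ 0)
    (hp : p.Prime) (hno : ¬ HasTransvectionModP (W.map (Int.castRingHom ℚ)) p) :
    (∀ q : ℕ, q.Prime → q ≠ p →
      GaloisRepUnramifiedAt (K := Qbar) ℚ (W.map (Int.castRingHom ℚ)).toAffine p q) ∧
    (∀ q : ℕ, q.Prime → q ≠ p → ∀ A : ValuationSubring Qbar, A.LiesOverPrime q →
      ∀ σ ∈ A.inertiaSubgroupIn ℚ, rhoBar (W.map (Int.castRingHom ℚ)) p σ = 1) ∧
    (∀ σ : GalQ, rhoBar (W.map (Int.castRingHom ℚ)) p σ ^ p = 1 →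
      rhoBar (W.map (Int.castRingHom ℚ)) p σ = 1) ∧
    Finite (GalQ ⧸ (rhoBar (W.map (Int.castRingHom ℚ)) p).ker) ∧
    ¬ p ∣ Nat.card (GalQ ⧸ (rhoBar (W.map (Int.castRingHom ℚ)) p).ker) := by
  have : Fact p.Prime := ⟨hp⟩
  have hcard := card_tors W hΔ hp
  refine ⟨fun q hq hqp => ?_, fun q hq hqp A hA σ hσ => ?_, fun σ hσ => ?_, ?_, ?_⟩
  · by_contra hram
    exact hno (hasTransvectionModP_of_not_unramifiedAt W hss hΔ hp hq hqp hram)
  · by_contra h1
    exact hno (hasTransvectionModP_of_ramified W hss hΔ hp hq hqp hA hσ h1)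
  · exact eq_one_of_pow_eq_one_of_not_hasTransvection _ p hcard hno σ hσ
  · exact finite_quotient_ker _ p hcard
  · exact not_dvd_card_of_not_hasTransvection _ p hcard hno

end Semistable

end Fermat.Agent.GE8.Irr2.Transv
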