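/-
GATE-E / E8.6 IRR2, leaf (HABS) of helper43's design (board 6790) — helper90.

**irreducible + odd ⟹ absolutely irreducible.**

`isIrreducible_baseChange_of_odd` : if `ρ : ResidualGaloisRep k` (`2 ≠ 0` in `k`) is irreducible
over `k` and some involution `c` of `G_ℚ` has `det ρ(c) = -1`, then `ρ.baseChange K` is
irreducible for EVERY field `K` over `k`.  Hence `ρ` and every `ρ.baseChange K` are absolutely
irreducible (`isAbsolutelyIrreducible_of_odd`, `isAbsolutelyIrreducible_baseChange_of_odd`).

Proof.  `g = ρ(c)` is an involution `≠ ± 1`; `e = (1 + g)/2`, `f = (1 - g)/2` are complementary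
orthogonal idempotents `≠ 0` of the plane `V`, so their ranges are lines, and the same holds for
`e_K, f_K` on `K ⊗ V`.  A `G`-stable line `U ⊆ K ⊗ V` is `g_K`-stable, hence `e_K`- and
`f_K`-stable, hence equal to `range e_K` or to `range f_K`; say `U = range e_K`.  Then
`f_K ρ_K(h) e_K = 0` for all `h`, so `f ρ(h) e = 0` over `k` (base change is injective on
endomorphisms), i.e. `range e` is a stable line of `V`: contradiction.

Mathlib + Prelude only.  The companion file `HabsW.lean` applies this to `ρ̄_{W,p}`.
-/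
import Mathlib
import Fermat.Prelude.Def_GaloisRep_Residual

set_option autoImplicit false
set_option linter.unusedVariables false

open scoped TensorProduct

namespace Fermat.Agent.GE8.Irr2.Habs

open Module

/-- `ℚ̄`. -/
local notation "Qb" => AlgebraicClosure ℚ

/-! ### complementary idempotents of a plane -/

section Plane

variable {F : Type*} [Field F] {M : Type*} [AddCommGroup M] [Module F M]

/-- complementary orthogonal endomorphisms are idempotent. -/
theorem idem_of_compl {e f : Module.End F M} (hadd : e + f = 1) (hef : e * f = 0) :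
    e * e = e := by
  have h : e * (e + f) = e := by rw [hadd, mul_one]
  rwa [mul_add, hef, add_zero] at h

/-- in a plane, the range of each of two nonzero complementary orthogonal idempotents is a
line. -/
theorem finrank_range_eq_one (hfin : finrank F M = 2) {e f : Module.End F M}
    (hadd : e + f = 1) (hef : e * f = 0) (hfe : f * e = 0) (he : e ≠ 0) (hf : f ≠ 0) :
    finrank F (LinearMap.range e) = 1 := by
  have hfd : Module.Finite F M := Module.finite_of_finrank_eq_succ hfin
  have hee := idem_of_compl hadd hef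
  have hsup : LinearMap.range e ⊔ LinearMap.range f = ⊤ := by
    rw [eq_top_iff]
    intro x _
    have hx : e x + f x = x := by
      have := LinearMap.congr_fun hadd x
      rwa [LinearMap.add_apply, Module.End.one_apply] at this
    rw [← hx]
    exact Submodule.add_mem_sup (LinearMap.mem_range_self e x) (LinearMap.mem_range_self f x)
  have hinf : LinearMap.range e ⊓ LinearMap.range f = ⊥ := by
    rw [eq_bot_iff]
    rintro x ⟨⟨a, rfl⟩, ⟨b, hb⟩⟩
    have h1 : e (e a) = e a := by
      have := LinearMap.congr_fun hee a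
      rwa [Module.End.mul_apply] at this
    have h2 : e (f b) = 0 := by
      have := LinearMap.congr_fun hef b
      rwa [Module.End.mul_apply, LinearMap.zero_apply] at this
    rw [Submodule.mem_bot, ← h1, ← hb, h2]
  have h := Submodule.finrank_sup_add_finrank_inf_eq (LinearMap.range e) (LinearMap.range f)
  rw [hsup, hinf, finrank_top, finrank_bot, hfin] at h
  have h1 : finrank F (LinearMap.range e) ≠ 0 := by
    rw [Ne, Submodule.finrank_eq_zero, LinearMap.range_eq_bot]
    exact he
  have h2 : finrank F (LinearMap.range f) ≠ 0 := by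
    rw [Ne, Submodule.finrank_eq_zero, LinearMap.range_eq_bot]
    exact hf
  omega

/-- a submodule of rank one is generated by each of its nonzero elements. -/
theorem exists_smul_eq_of_finrank_eq_one {U : Submodule F M} (hU : finrank F U = 1) {u : M}
    (huU : u ∈ U) (hu0 : u ≠ 0) {w : M} (hw : w ∈ U) : ∃ c : F, c • u = w := by
  have hne : (⟨u, huU⟩ : U) ≠ 0 := fun h => hu0 (congrArg Subtype.val h)
  obtain ⟨c, hc⟩ := (finrank_eq_one_iff_of_nonzero' (⟨u, huU⟩ : U) hne).1 hU ⟨w, hw⟩
  exact ⟨c, congrArg Subtype.val hc⟩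

end Plane

/-! ### the key step -/

section Key

variable {k : Type} [Field k]

/-- **Key step.**  `e, f` nonzero complementary orthogonal idempotents of the plane of an
irreducible `ρ`; no stable line of `K ⊗ V` contains a nonzero vector killed by `f_K`. -/
theorem false_of_stable_line (ρ : ResidualGaloisRep k) (hirr : ρ.IsIrreducible)
    {e f : Module.End k ρ.V} (hadd : e + f = 1) (hef : e * f = 0) (hfe : f * e = 0)
    (he : e ≠ 0) (hf : f ≠ 0) (K : Type) [Field K] [Algebra k K]
    (U : Submodule K (ρ.baseChange K).V)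
    (hU : ∀ σ : Qb ≃ₐ[ℚ] Qb, ∀ x ∈ U, (ρ.baseChange K).ρ σ x ∈ U)
    (hU1 : finrank K U = 1) (u : (ρ.baseChange K).V) (huU : u ∈ U) (hu0 : u ≠ 0)
    (hfu : f.baseChange K u = 0) : False := by
  let bc := Module.End.baseChangeHom k K ρ.V
  have hbc_inj : Function.Injective bc := LinearMap.baseChangeHom_injective k ρ.V K
  have hρK : ∀ g, (ρ.baseChange K).ρ g = bc (ρ.ρ g) := fun g => rfl
  have hfK : f.baseChange K = bc f := rfl
  set eK := bc e with heKdef
  set fK := bc f with hfKdef
  have haddK : eK + fK = 1 := by rw [heKdef, hfKdef, ← map_add, hadd, map_one]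
  have hefK : eK * fK = 0 := by rw [heKdef, hfKdef, ← map_mul, hef, map_zero]
  have hfeK : fK * eK = 0 := by rw [heKdef, hfKdef, ← map_mul, hfe, map_zero]
  have heK : eK ≠ 0 := fun h => he (hbc_inj (by rw [← heKdef, h, map_zero]))
  have hfK0 : fK ≠ 0 := fun h => hf (hbc_inj (by rw [← hfKdef, h, map_zero]))
  have hfin : finrank K (ρ.baseChange K).V = 2 := (ρ.baseChange K).finrank_eq
  have hrk := finrank_range_eq_one hfin haddK hefK hfeK heK hfK0
  -- `u = e_K u`
  have hfu' : fK u = 0 := hfu
  have heu : eK u = u := by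
    have := LinearMap.congr_fun haddK u
    rwa [LinearMap.add_apply, Module.End.one_apply, hfu', add_zero] at this
  have hu_range : u ∈ LinearMap.range eK := ⟨u, heu⟩
  -- `range e_K ⊆ U`
  have hrange_le : ∀ y, eK y ∈ U := by
    intro y
    obtain ⟨c, hc⟩ := exists_smul_eq_of_finrank_eq_one hrk hu_range hu0
      (LinearMap.mem_range_self eK y)
    rw [← hc]
    exact U.smul_mem c huU
  -- `f_K` kills `U`
  have hkill : ∀ w ∈ U, fK w = 0 := by
    intro w hw
    obtain ⟨c, hc⟩ := exists_smul_eq_of_finrank_eq_one hU1 huU hu0 hw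
    rw [← hc, map_smul, hfu', smul_zero]
  -- `f ρ(g) e = 0`
  have hzero : ∀ g : Qb ≃ₐ[ℚ] Qb, f * ρ.ρ g * e = 0 := by
    intro g
    apply hbc_inj
    rw [map_zero, map_mul, map_mul, ← heKdef, ← hfKdef, ← hρK]
    refine LinearMap.ext fun y => ?_
    rw [Module.End.mul_apply, Module.End.mul_apply, LinearMap.zero_apply]
    exact hkill _ (hU g _ (hrange_le y))
  -- `range e` is a stable line
  rcases hirr (LinearMap.range e) (by
    rintro g x ⟨a, rfl⟩
    have h1 : e (ρ.ρ g (e a)) + f (ρ.ρ g (e a)) = ρ.ρ g (e a) := by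
      have := LinearMap.congr_fun hadd (ρ.ρ g (e a))
      rwa [LinearMap.add_apply, Module.End.one_apply] at this
    have h2 : f (ρ.ρ g (e a)) = 0 := by
      have := LinearMap.congr_fun (hzero g) a
      rwa [Module.End.mul_apply, Module.End.mul_apply, LinearMap.zero_apply] at this
    rw [h2, add_zero] at h1
    exact ⟨_, h1⟩) with h | h
  · exact he (LinearMap.range_eq_bot.1 h)
  · apply hf
    refine LinearMap.ext fun x => ?_
    have hx : x ∈ LinearMap.range e := by rw [h]; exact Submodule.mem_top
    obtain ⟨a, rfl⟩ := hx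
    have := LinearMap.congr_fun hfe a
    rwa [Module.End.mul_apply] at this

end Key

/-! ### the theorem -/

section Main

variable {k : Type} [Field k]

/-- **(HABS)  Irreducible + odd ⟹ irreducible after every base change.** -/
theorem isIrreducible_baseChange_of_odd (h2 : (2 : k) ≠ 0) (ρ : ResidualGaloisRep k)
    (hirr : ρ.IsIrreducible) (c : Qb ≃ₐ[ℚ] Qb) (hc : c * c = 1)
    (hdet : LinearMap.det (ρ.ρ c) = -1) (K : Type) [Field K] [Algebra k K] :
    (ρ.baseChange K).IsIrreducible := by
  set g : Module.End k ρ.V := ρ.ρ c with hgdef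
  have hgg : g * g = 1 := by rw [hgdef, ← map_mul, hc, map_one]
  have h11 : (1 : k) ≠ -1 := by
    intro h
    apply h2
    have : (1 : k) + 1 = 0 := by nth_rewrite 1 [h]; ring
    rw [← this]; norm_num
  have hg1 : g ≠ 1 := by
    intro h
    rw [h, map_one] at hdet
    exact h11 hdet
  have hgN : g ≠ -1 := by
    intro h
    have h3 : g = (-1 : k) • (1 : Module.End k ρ.V) := by rw [h, neg_smul, one_smul]
    rw [h3, LinearMap.det_smul, ρ.finrank_eq, map_one] at hdet
    apply h11
    rw [← hdet]; ring
  set e : Module.End k ρ.V := (2 : k)⁻¹ • (1 + g) with hedef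
  set f : Module.End k ρ.V := (2 : k)⁻¹ • (1 - g) with hfdef
  have hadd : e + f = 1 := by
    rw [hedef, hfdef, ← smul_add]
    have : (1 + g) + (1 - g) = (2 : k) • (1 : Module.End k ρ.V) := by
      rw [two_smul]; abel
    rw [this, smul_smul, inv_mul_cancel₀ h2, one_smul]
  have hef : e * f = 0 := by
    rw [hedef, hfdef, smul_mul_smul_comm]
    have : (1 + g) * (1 - g) = 0 := by
      rw [mul_sub, mul_one, add_mul, one_mul, hgg]; abel
    rw [this, smul_zero]
  have hfe : f * e = 0 := by
    rw [hedef, hfdef, smul_mul_smul_comm]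
    have : (1 - g) * (1 + g) = 0 := by
      rw [mul_add, mul_one, sub_mul, one_mul, hgg]; abel
    rw [this, smul_zero]
  have he : e ≠ 0 := by
    intro h
    rw [hedef, smul_eq_zero] at h
    rcases h with h | h
    · exact inv_ne_zero h2 h
    · exact hgN (eq_neg_of_add_eq_zero_right h)
  have hf : f ≠ 0 := by
    intro h
    rw [hfdef, smul_eq_zero] at h
    rcases h with h | h
    · exact inv_ne_zero h2 h
    · exact hg1 (sub_eq_zero.1 h).symm
  -- a stable line
  intro U hU
  by_contra hcon
  obtain ⟨hU0, hU1⟩ := not_or.mp hcon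
  have hfin : finrank K (ρ.baseChange K).V = 2 := (ρ.baseChange K).finrank_eq
  have hfd : Module.Finite K (ρ.baseChange K).V := Module.finite_of_finrank_eq_succ hfin
  have hrkU : finrank K U = 1 := by
    have hlt : finrank K U < finrank K (ρ.baseChange K).V := Submodule.finrank_lt hU1
    have hne : finrank K U ≠ 0 := by
      rw [Ne, Submodule.finrank_eq_zero]
      exact hU0
    omega
  obtain ⟨u, huU, hu0⟩ := Submodule.exists_mem_ne_zero_of_ne_bot hU0
  let bc := Module.End.baseChangeHom k K ρ.V
  have hρK : ∀ σ, (ρ.baseChange K).ρ σ = bc (ρ.ρ σ) := fun σ => rfl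
  -- `U` is stable under `e_K` and `f_K`
  have hgU : ∀ x ∈ U, bc g x ∈ U := fun x hx => by
    have := hU c x hx
    rwa [hρK] at this
  have heU : ∀ x ∈ U, bc e x ∈ U := by
    intro x hx
    have h : bc e = (2 : k)⁻¹ • (1 + bc g) := by
      rw [hedef, map_smul, map_add, map_one]
    rw [h, LinearMap.smul_apply, LinearMap.add_apply, Module.End.one_apply]
    exact U.smul_of_tower_mem _ (U.add_mem hx (hgU x hx))
  have haddK : bc e + bc f = 1 := by rw [← map_add, hadd, map_one]
  by_cases heu : bc e u = 0
  · -- `u` is killed by `e_K`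
    exact false_of_stable_line ρ hirr (by rwa [add_comm]) hfe hef hf he K U hU hrkU u huU hu0 heu
  · -- `e_K u` is killed by `f_K`
    refine false_of_stable_line ρ hirr hadd hef hfe he hf K U hU hrkU (bc e u) (heU u huU) heu ?_
    change bc f (bc e u) = 0
    rw [← Module.End.mul_apply, ← map_mul, hfe, map_zero, LinearMap.zero_apply]

/-- the determinant of a base change. -/
theorem det_baseChange (ρ : ResidualGaloisRep k) (K : Type) [Field K] [Algebra k K]
    (σ : Qb ≃ₐ[ℚ] Qb) :
    LinearMap.det ((ρ.baseChange K).ρ σ) = algebraMap k K (LinearMap.det (ρ.ρ σ)) :=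
  LinearMap.det_baseChange (ρ.ρ σ)

/-- Irreducible + odd ⟹ absolutely irreducible. -/
theorem isAbsolutelyIrreducible_of_odd (h2 : (2 : k) ≠ 0) (ρ : ResidualGaloisRep k)
    (hirr : ρ.IsIrreducible) (c : Qb ≃ₐ[ℚ] Qb) (hc : c * c = 1)
    (hdet : LinearMap.det (ρ.ρ c) = -1) : ρ.IsAbsolutelyIrreducible :=
  isIrreducible_baseChange_of_odd h2 ρ hirr c hc hdet (AlgebraicClosure k)

/-- Irreducible + odd ⟹ every base change is absolutely irreducible. -/
theorem isAbsolutelyIrreducible_baseChange_of_odd (h2 : (2 : k) ≠ 0) (ρ : ResidualGaloisRep k)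
    (hirr : ρ.IsIrreducible) (c : Qb ≃ₐ[ℚ] Qb) (hc : c * c = 1)
    (hdet : LinearMap.det (ρ.ρ c) = -1) (K : Type) [Field K] [Algebra k K] :
    (ρ.baseChange K).IsAbsolutelyIrreducible := by
  refine isAbsolutelyIrreducible_of_odd ?_ (ρ.baseChange K)
    (isIrreducible_baseChange_of_odd h2 ρ hirr c hc hdet K) c hc ?_
  · intro h
    apply h2
    apply (algebraMap k K).injective
    rw [map_ofNat, map_zero]
    exact h
  · rw [det_baseChange, hdet, map_neg, map_one]

end Main

end Fermat.Agent.GE8.Irr2.Habs
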