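/-
GATE-E / E8.6 IRR2, leaf (HABS), part 2 (helper90): the corollary for `ρ̄ = W[p]`.

For `W/ℤ` with `Δ ≠ 0`, `p` odd and `W[p]` irreducible (frozen `W.ModRepIsIrreducible p`), the
residual representation `RhoBar.rb p W hcard₁ hker` (the one of the frozen S38/S56/S59) and every
base change of it are ABSOLUTELY irreducible — no transvection, no modularity datum needed:
`det ρ̄(c) = χ_p(c) = -1` at complex conjugation (`GB/A/A6/ECDet.det_rho`, `cyc_conj`) and
`Habs.isIrreducible_baseChange_of_odd`.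

This is clause (a) of helper43's `GE8/Irr2/Stmt.lean` target, for ALL odd `p`.
-/
import Fermat.Agent.GE8.Irr2.Habs
import Fermat.Agent.GB.Setup.RhoBar
import Fermat.Agent.GB.A.A6.ECDet

set_option autoImplicit false

open WeierstrassCurve WeierstrassCurve.Affine.Point
open scoped WeierstrassCurve.Affine

namespace Fermat.Agent.GE8.Irr2.HabsW

open Fermat.Agent.GB.Setup.RhoBar Fermat.Agent.GE8.Irr2.Habs

/-- `ℚ̄`. -/
local notation "Qb" => AlgebraicClosure ℚ
/-- `G_ℚ`. -/
local notation "GQ" => (AlgebraicClosure ℚ ≃ₐ[ℚ] AlgebraicClosure ℚ)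

variable {p : ℕ} [Fact p.Prime] {W : WeierstrassCurve ℤ}
  (hcard₁ : Nat.card (Submodule.torsionBy ℤ
    ((W.map (Int.castRingHom ℚ))⁄(AlgebraicClosure ℚ)).Point p) = p ^ 2)
  (hker : GaloisFactorsThroughFiniteLevel
    (galoisRepModuleEnd (K := AlgebraicClosure ℚ) ℚ (W.map (Int.castRingHom ℚ)) p))

/-- `2 ≠ 0` in `ZMod p`, `p` odd. -/
theorem two_ne_zero_zmod (hp2 : p ≠ 2) : (2 : ZMod p) ≠ 0 := by
  intro h
  have : ((2 : ℕ) : ZMod p) = 0 := by exact_mod_cast h
  rw [ZMod.natCast_eq_zero_iff] at this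
  exact hp2 ((Nat.prime_dvd_prime_iff_eq (Fact.out : p.Prime) Nat.prime_two).1 this)

/-- **oddness of `ρ̄_{W,p}`**: `det ρ̄(c) = -1` at complex conjugation. -/
theorem det_rb_complexConjugation (hΔ : W.Δ ≠ 0) (hirr : W.ModRepIsIrreducible p) :
    LinearMap.det ((rb p W hcard₁ hker).ρ complexConjugation) = -1 := by
  have h := Fermat.Agent.GB.A.A6.ECDet.det_rho hΔ hcard₁ hirr complexConjugation
  rw [Fermat.Agent.GB.A.A6.ECDet.cyc_conj] at h
  exact h

/-- `det ρ̄_{W,p} = χ_p` on the frozen `rb`. -/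
theorem det_rb (hΔ : W.Δ ≠ 0) (hirr : W.ModRepIsIrreducible p) (g : GQ) :
    LinearMap.det ((rb p W hcard₁ hker).ρ g) =
      ((Fermat.Agent.GJ.CycChar.cyc p g : (ZMod p)ˣ) : ZMod p) :=
  Fermat.Agent.GB.A.A6.ECDet.det_rho hΔ hcard₁ hirr g

/-- `ρ̄_{W,p} ⊗ K` is irreducible for every field `K ⊇ 𝔽_p` (`p` odd, `W[p]` irreducible). -/
theorem isIrreducible_rb_baseChange (hp2 : p ≠ 2) (hΔ : W.Δ ≠ 0)
    (hirr : W.ModRepIsIrreducible p) (K : Type) [Field K] [Algebra (ZMod p) K] :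
    ((rb p W hcard₁ hker).baseChange K).IsIrreducible :=
  isIrreducible_baseChange_of_odd (two_ne_zero_zmod hp2) (rb p W hcard₁ hker)
    (isIrreducible_rb hcard₁ hker hirr) complexConjugation complexConjugation_mul_self
    (det_rb_complexConjugation hcard₁ hker hΔ hirr) K

/-- `ρ̄_{W,p}` is absolutely irreducible (`p` odd, `W[p]` irreducible). -/
theorem isAbsolutelyIrreducible_rb (hp2 : p ≠ 2) (hΔ : W.Δ ≠ 0)
    (hirr : W.ModRepIsIrreducible p) : (rb p W hcard₁ hker).IsAbsolutelyIrreducible :=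
  isAbsolutelyIrreducible_of_odd (two_ne_zero_zmod hp2) (rb p W hcard₁ hker)
    (isIrreducible_rb hcard₁ hker hirr) complexConjugation complexConjugation_mul_self
    (det_rb_complexConjugation hcard₁ hker hΔ hirr)

/-- **the `habs` binder of the frozen S56** for `ρ̄_{W,p} ⊗ k`, every odd `p`, NO transvection
hypothesis (compare `RhoBar.isAbsolutelyIrreducible_baseChange`). -/
theorem isAbsolutelyIrreducible_rb_baseChange (hp2 : p ≠ 2) (hΔ : W.Δ ≠ 0)
    (hirr : W.ModRepIsIrreducible p) (k : Type) [Field k] [Algebra (ZMod p) k] :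
    ((rb p W hcard₁ hker).baseChange k).IsAbsolutelyIrreducible :=
  isAbsolutelyIrreducible_baseChange_of_odd (two_ne_zero_zmod hp2) (rb p W hcard₁ hker)
    (isIrreducible_rb hcard₁ hker hirr) complexConjugation complexConjugation_mul_self
    (det_rb_complexConjugation hcard₁ hker hΔ hirr) k

end Fermat.Agent.GE8.Irr2.HabsW
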