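/-
GATE-E (S59 pre-work) / E8.6 IRR2 at `p = 3`, file 1 (helper21).  Mathlib only.

* `eq_top_of_normalClosure_eq_top` : in a finite `p`-group, a subgroup whose normal closure is
  everything is everything (a proper subgroup lies in a maximal one, which is normal by the
  normaliser condition for nilpotent groups).
* `eq_top_of_normal_of_forall_le` : the same in the form used with Minkowski: if every NORMAL
  subgroup containing `I` is everything then `I` is everything.
-/
import Mathlib

set_option autoImplicit false

namespace Fermat.Agent.GE8.Irr2.PGroup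

/-- in a finite `p`-group, a subgroup with full normal closure is full. -/
theorem eq_top_of_normalClosure_eq_top {G : Type*} [Group G] [Finite G] {p : ℕ}
    [Fact p.Prime] (hG : IsPGroup p G) (I : Subgroup G)
    (h : Subgroup.normalClosure (I : Set G) = ⊤) : I = ⊤ := by
  by_contra hI
  obtain ⟨M, hM, hIM⟩ := (eq_top_or_exists_le_coatom I).resolve_left hI
  have hnil : Group.IsNilpotent G := hG.isNilpotent
  have hlt : M < Subgroup.normalizer (M : Set G) :=
    Group.normalizerCondition_of_isNilpotent M hM.lt_top
  have hnorm : Subgroup.normalizer (M : Set G) = ⊤ := hM.2 _ hlt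
  have hMn : M.Normal := Subgroup.normalizer_eq_top_iff.mp hnorm
  have hle : Subgroup.normalClosure (I : Set G) ≤ M := Subgroup.normalClosure_le_normal hIM
  rw [h] at hle
  exact hM.1 (top_le_iff.mp hle)

/-- the same: if every normal subgroup containing `I` is `⊤` then `I = ⊤`. -/
theorem eq_top_of_normal_of_forall_le {G : Type*} [Group G] [Finite G] {p : ℕ}
    [Fact p.Prime] (hG : IsPGroup p G) (I : Subgroup G)
    (h : ∀ M : Subgroup G, M.Normal → I ≤ M → M = ⊤) : I = ⊤ :=
  eq_top_of_normalClosure_eq_top hG I
    (h _ Subgroup.normalClosure_normal Subgroup.le_normalClosure)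

end Fermat.Agent.GE8.Irr2.PGroup
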