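/-
GATE-E (S59 pre-work) / E8.6 IRR2, the prime-to-`p` image case: steps (A) + (B) (helper21).
Abstract: no elliptic curve here.

`f : G_ℚ →* Γ` a homomorphism of finite level (prelude shape), unramified at (one place above)
every prime `l ≠ p`, `A` a place of `ℚ̄` above `p`.

* `isOpen_of_ker_le`                     : a subgroup containing `ker f` is open;
* `eq_top_of_ker_le_of_inertia_le`       : **(A) Minkowski** — a NORMAL subgroup `U ≤ G_ℚ` with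
  `ker f ≤ U` and `I_A ≤ U` is everything (`S13/Global.eq_top_of_inertia_le`);
* `eq_top_of_normal_of_map_inertia_le`   : image form (`f` surjective): a normal `M ≤ Γ` containing
  `f(I_A)` is everything, i.e. `Γ` is the normal closure of `f(I_A)` (`normalClosure_map_inertia`);
* `map_map_inertia_eq_range`             : for every hom `χ : Γ →* C`, `C` commutative,
  `χ(f(I_A)) = χ(Γ)`;
* `map_inertia_eq_top_of_isPGroup`       : **`Γ` a finite `ℓ`-group ⟹ `f(I_A) = Γ`**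
  (`PGroup.eq_top_of_normal_of_forall_le`);
* `comm_of_isPGroup`, `pow_eq_self_of_isPGroup`, `isCyclic_of_isPGroup` : if moreover `ℓ ≠ p` then
  `Γ` is commutative, CYCLIC, and `g ^ p = g` for every `g : Γ` (the tame relation
  `GB/E2/TameRelGQ` with a Frobenius element at `A`): *a finite `ℓ`-group quotient of `G_ℚ`
  unramified outside `p ≠ ℓ` is cyclic of exponent dividing `p - 1`*.
-/
import Mathlib
import Fermat.Agent.S13.Global
import Fermat.Agent.GB.E2.TameRelGQ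
import Fermat.Agent.GE8.Irr2.PGroup

set_option autoImplicit false
set_option linter.unusedSectionVars false
set_option linter.unusedVariables false

namespace Fermat.Agent.GE8.Irr2.MinkA

open Fermat.Agent.Common_helper32

section Core

variable {Γ : Type*} [Group Γ] (f : GQ →* Γ)

/-- a subgroup containing the kernel of a finite-level hom is open. -/
theorem isOpen_of_ker_le
    (hf : ∃ L : IntermediateField ℚ Qb, FiniteDimensional ℚ L ∧
      ∀ σ : GQ, (∀ x ∈ L, σ x = x) → f σ = 1)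
    (U : Subgroup GQ) (hU : f.ker ≤ U) : IsOpen (U : Set GQ) := by
  obtain ⟨L, hL, hlev⟩ := hf
  refine Subgroup.isOpen_mono (H₁ := L.fixingSubgroup) (H₂ := U) (fun σ hσ => hU ?_)
    (IntermediateField.fixingSubgroup_isOpen L)
  rw [MonoidHom.mem_ker]
  exact hlev σ (fun x hx => hσ ⟨x, hx⟩)

/-- **(A) Minkowski.** -/
theorem eq_top_of_ker_le_of_inertia_le
    (hf : ∃ L : IntermediateField ℚ Qb, FiniteDimensional ℚ L ∧
      ∀ σ : GQ, (∀ x ∈ L, σ x = x) → f σ = 1)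
    {p : ℕ} (A : ValuationSubring Qb) (hA : A.LiesOverPrime p)
    (hunr : ∀ l : ℕ, l.Prime → l ≠ p → ∃ A' : ValuationSubring Qb, A'.LiesOverPrime l ∧
      ∀ σ ∈ A'.inertiaSubgroupIn ℚ, f σ = 1)
    (U : Subgroup GQ) (hn : U.Normal) (hker : f.ker ≤ U) (hI : A.inertiaSubgroupIn ℚ ≤ U) :
    U = ⊤ := by
  refine Fermat.Agent.S13.Global.eq_top_of_inertia_le U hn (isOpen_of_ker_le f hf U hker)
    (fun l hl => ?_)
  by_cases hlp : l = p
  · subst hlp
    exact ⟨A, hA, hI⟩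
  · obtain ⟨A', hA', h⟩ := hunr l hl hlp
    exact ⟨A', hA', fun σ hσ => hker (MonoidHom.mem_ker.2 (h σ hσ))⟩

/-- **(A)**, image form. -/
theorem eq_top_of_normal_of_map_inertia_le
    (hf : ∃ L : IntermediateField ℚ Qb, FiniteDimensional ℚ L ∧
      ∀ σ : GQ, (∀ x ∈ L, σ x = x) → f σ = 1)
    (hsurj : Function.Surjective f)
    {p : ℕ} (A : ValuationSubring Qb) (hA : A.LiesOverPrime p)
    (hunr : ∀ l : ℕ, l.Prime → l ≠ p → ∃ A' : ValuationSubring Qb, A'.LiesOverPrime l ∧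
      ∀ σ ∈ A'.inertiaSubgroupIn ℚ, f σ = 1)
    (M : Subgroup Γ) (hM : M.Normal) (hI : (A.inertiaSubgroupIn ℚ).map f ≤ M) : M = ⊤ := by
  have h := eq_top_of_ker_le_of_inertia_le f hf A hA hunr (M.comap f) (hM.comap f)
    (fun σ hσ => by
      rw [Subgroup.mem_comap, MonoidHom.mem_ker.1 hσ]
      exact M.one_mem)
    (fun σ hσ => Subgroup.mem_comap.2 (hI ⟨σ, hσ, rfl⟩))
  rw [eq_top_iff]
  intro g _
  obtain ⟨σ, rfl⟩ := hsurj g
  have : σ ∈ M.comap f := by rw [h]; trivial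
  exact this

/-- `Γ` is the normal closure of the image of inertia at `p`. -/
theorem normalClosure_map_inertia
    (hf : ∃ L : IntermediateField ℚ Qb, FiniteDimensional ℚ L ∧
      ∀ σ : GQ, (∀ x ∈ L, σ x = x) → f σ = 1)
    (hsurj : Function.Surjective f)
    {p : ℕ} (A : ValuationSubring Qb) (hA : A.LiesOverPrime p)
    (hunr : ∀ l : ℕ, l.Prime → l ≠ p → ∃ A' : ValuationSubring Qb, A'.LiesOverPrime l ∧
      ∀ σ ∈ A'.inertiaSubgroupIn ℚ, f σ = 1) :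
    Subgroup.normalClosure (((A.inertiaSubgroupIn ℚ).map f : Subgroup Γ) : Set Γ) = ⊤ :=
  eq_top_of_normal_of_map_inertia_le f hf hsurj A hA hunr _ Subgroup.normalClosure_normal
    Subgroup.le_normalClosure

/-- every commutative quotient of `Γ` is the image of inertia at `p`. -/
theorem map_map_inertia_eq_range
    (hf : ∃ L : IntermediateField ℚ Qb, FiniteDimensional ℚ L ∧
      ∀ σ : GQ, (∀ x ∈ L, σ x = x) → f σ = 1)
    (hsurj : Function.Surjective f)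
    {p : ℕ} (A : ValuationSubring Qb) (hA : A.LiesOverPrime p)
    (hunr : ∀ l : ℕ, l.Prime → l ≠ p → ∃ A' : ValuationSubring Qb, A'.LiesOverPrime l ∧
      ∀ σ ∈ A'.inertiaSubgroupIn ℚ, f σ = 1)
    {C : Type*} [CommGroup C] (χ : Γ →* C) :
    ((A.inertiaSubgroupIn ℚ).map f).map χ = χ.range := by
  apply le_antisymm
  · rintro _ ⟨g, -, rfl⟩
    exact ⟨g, rfl⟩
  · have h := eq_top_of_normal_of_map_inertia_le f hf hsurj A hA hunr
      ((((A.inertiaSubgroupIn ℚ).map f).map χ).comap χ) inferInstance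
      (fun g hg => Subgroup.mem_comap.2 ⟨g, hg, rfl⟩)
    rintro _ ⟨g, rfl⟩
    have : g ∈ (((A.inertiaSubgroupIn ℚ).map f).map χ).comap χ := by rw [h]; trivial
    exact this

/-- **`Γ` a finite `ℓ`-group ⟹ `f(I_A) = Γ`.** -/
theorem map_inertia_eq_top_of_isPGroup [Finite Γ]
    (hf : ∃ L : IntermediateField ℚ Qb, FiniteDimensional ℚ L ∧
      ∀ σ : GQ, (∀ x ∈ L, σ x = x) → f σ = 1)
    (hsurj : Function.Surjective f)
    {p : ℕ} (A : ValuationSubring Qb) (hA : A.LiesOverPrime p)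
    (hunr : ∀ l : ℕ, l.Prime → l ≠ p → ∃ A' : ValuationSubring Qb, A'.LiesOverPrime l ∧
      ∀ σ ∈ A'.inertiaSubgroupIn ℚ, f σ = 1)
    {ℓ : ℕ} [Fact ℓ.Prime] (hΓ : IsPGroup ℓ Γ) :
    (A.inertiaSubgroupIn ℚ).map f = ⊤ :=
  Fermat.Agent.GE8.Irr2.PGroup.eq_top_of_normal_of_forall_le hΓ _
    (fun M hM hI => eq_top_of_normal_of_map_inertia_le f hf hsurj A hA hunr M hM hI)

/-- element form: every element of `Γ` is the image of an element of inertia. -/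
theorem exists_mem_inertia_of_isPGroup [Finite Γ]
    (hf : ∃ L : IntermediateField ℚ Qb, FiniteDimensional ℚ L ∧
      ∀ σ : GQ, (∀ x ∈ L, σ x = x) → f σ = 1)
    (hsurj : Function.Surjective f)
    {p : ℕ} (A : ValuationSubring Qb) (hA : A.LiesOverPrime p)
    (hunr : ∀ l : ℕ, l.Prime → l ≠ p → ∃ A' : ValuationSubring Qb, A'.LiesOverPrime l ∧
      ∀ σ ∈ A'.inertiaSubgroupIn ℚ, f σ = 1)
    {ℓ : ℕ} [Fact ℓ.Prime] (hΓ : IsPGroup ℓ Γ) (g : Γ) :
    ∃ τ ∈ A.inertiaSubgroupIn ℚ, f τ = g := by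
  have h : g ∈ (A.inertiaSubgroupIn ℚ).map f := by
    rw [map_inertia_eq_top_of_isPGroup f hf hsurj A hA hunr hΓ]
    trivial
  obtain ⟨τ, hτ, rfl⟩ := h
  exact ⟨τ, hτ, rfl⟩

/-- **a finite `ℓ`-group quotient of `G_ℚ` unramified outside `p ≠ ℓ` is commutative.** -/
theorem comm_of_isPGroup [Finite Γ]
    (hf : ∃ L : IntermediateField ℚ Qb, FiniteDimensional ℚ L ∧
      ∀ σ : GQ, (∀ x ∈ L, σ x = x) → f σ = 1)
    (hsurj : Function.Surjective f)
    {p : ℕ} (hp : p.Prime) (A : ValuationSubring Qb) (hA : A.LiesOverPrime p)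
    (hunr : ∀ l : ℕ, l.Prime → l ≠ p → ∃ A' : ValuationSubring Qb, A'.LiesOverPrime l ∧
      ∀ σ ∈ A'.inertiaSubgroupIn ℚ, f σ = 1)
    {ℓ : ℕ} [Fact ℓ.Prime] (hℓp : ℓ ≠ p) (hΓ : IsPGroup ℓ Γ) (g h : Γ) : g * h = h * g := by
  obtain ⟨φ, hφ⟩ := exists_isFrobeniusAt_of_liesOver A p hp hA
  obtain ⟨σ, hσ, rfl⟩ := exists_mem_inertia_of_isPGroup f hf hsurj A hA hunr hΓ g
  obtain ⟨τ, hτ, rfl⟩ := exists_mem_inertia_of_isPGroup f hf hsurj A hA hunr hΓ h
  exact Fermat.Agent.GB.E2.TameRelGQ.map_commute_GQ A hp hA hφ f hf ℓ hℓp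
    (hΓ.to_subgroup _) hσ hτ

/-- **… and of exponent dividing `p - 1`**: `g ^ p = g`. -/
theorem pow_eq_self_of_isPGroup [Finite Γ]
    (hf : ∃ L : IntermediateField ℚ Qb, FiniteDimensional ℚ L ∧
      ∀ σ : GQ, (∀ x ∈ L, σ x = x) → f σ = 1)
    (hsurj : Function.Surjective f)
    {p : ℕ} (hp : p.Prime) (A : ValuationSubring Qb) (hA : A.LiesOverPrime p)
    (hunr : ∀ l : ℕ, l.Prime → l ≠ p → ∃ A' : ValuationSubring Qb, A'.LiesOverPrime l ∧
      ∀ σ ∈ A'.inertiaSubgroupIn ℚ, f σ = 1)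
    {ℓ : ℕ} [Fact ℓ.Prime] (hℓp : ℓ ≠ p) (hΓ : IsPGroup ℓ Γ) (g : Γ) : g ^ p = g := by
  obtain ⟨φ, hφ⟩ := exists_isFrobeniusAt_of_liesOver A p hp hA
  obtain ⟨σ, hσ, rfl⟩ := exists_mem_inertia_of_isPGroup f hf hsurj A hA hunr hΓ g
  have h1 := Fermat.Agent.GB.E2.TameRelGQ.map_conj_eq_pow_GQ A hp hA hφ f hf ℓ hℓp
    (hΓ.to_subgroup _) hσ
  rw [← h1, map_mul, map_mul, comm_of_isPGroup f hf hsurj hp A hA hunr hℓp hΓ (f φ) (f σ),
    mul_assoc, ← map_mul, mul_inv_cancel, map_one, mul_one]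

/-- `g ^ (p - 1) = 1`. -/
theorem pow_pred_eq_one_of_isPGroup [Finite Γ]
    (hf : ∃ L : IntermediateField ℚ Qb, FiniteDimensional ℚ L ∧
      ∀ σ : GQ, (∀ x ∈ L, σ x = x) → f σ = 1)
    (hsurj : Function.Surjective f)
    {p : ℕ} (hp : p.Prime) (A : ValuationSubring Qb) (hA : A.LiesOverPrime p)
    (hunr : ∀ l : ℕ, l.Prime → l ≠ p → ∃ A' : ValuationSubring Qb, A'.LiesOverPrime l ∧
      ∀ σ ∈ A'.inertiaSubgroupIn ℚ, f σ = 1)
    {ℓ : ℕ} [Fact ℓ.Prime] (hℓp : ℓ ≠ p) (hΓ : IsPGroup ℓ Γ) (g : Γ) : g ^ (p - 1) = 1 := by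
  have h := pow_eq_self_of_isPGroup f hf hsurj hp A hA hunr hℓp hΓ g
  have h2 : g ^ (p - 1) * g = 1 * g := by
    rw [← pow_succ, Nat.sub_add_cancel hp.one_le, h, one_mul]
  exact mul_right_cancel h2

/-- **… and cyclic.** -/
theorem isCyclic_of_isPGroup [Finite Γ]
    (hf : ∃ L : IntermediateField ℚ Qb, FiniteDimensional ℚ L ∧
      ∀ σ : GQ, (∀ x ∈ L, σ x = x) → f σ = 1)
    (hsurj : Function.Surjective f)
    {p : ℕ} (hp : p.Prime) (A : ValuationSubring Qb) (hA : A.LiesOverPrime p)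
    (hunr : ∀ l : ℕ, l.Prime → l ≠ p → ∃ A' : ValuationSubring Qb, A'.LiesOverPrime l ∧
      ∀ σ ∈ A'.inertiaSubgroupIn ℚ, f σ = 1)
    {ℓ : ℕ} [Fact ℓ.Prime] (hℓp : ℓ ≠ p) (hΓ : IsPGroup ℓ Γ) : IsCyclic Γ := by
  obtain ⟨τ, hτ, hgen⟩ := Fermat.Agent.GP.Loc.TamePQuot.exists_inertia_generator_of_isPGroup A hp hA
    f hf ℓ hℓp (hΓ.to_subgroup _)
  refine ⟨⟨f τ, fun g => ?_⟩⟩
  obtain ⟨σ, hσ, rfl⟩ := exists_mem_inertia_of_isPGroup f hf hsurj A hA hunr hΓ g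
  obtain ⟨n, hn⟩ := hgen σ hσ
  exact ⟨n, hn.symm⟩

end Core

end Fermat.Agent.GE8.Irr2.MinkA
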