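/-
GATE-E (S59 pre-work) / E8.6 IRR2, the prime-to-`p` image case: the elliptic-curve instance of
`GE8/Irr2/MinkA` (helper21).

`E / ℚ`, `ρ̄ = rhoBar E p : G_ℚ →* End(E[p])` (helper90's `Transv.rhoBar`, = prelude
`galoisRepModuleEnd`).

* `rhoU`, `Im`, `rhoR` : `ρ̄` as a hom to the unit group, its image `Im E p ≤ (End E[p])ˣ`, and the
  SURJECTIVE hom `rhoR E p : G_ℚ →* Im E p`; `rhoR_eq_one_iff`, `coe_rhoR`;
* `rhoR_level`       : finite level (prelude shape) when `E[p]` is finite;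
* `card_units_end`   : `#GL(V) = (p² - 1)(p² - p)` for a `ZMod p`-module with `p²` elements;
  `card_im_dvd`      : `#Im ∣ (p² - 1)(p² - p)`;
* for `W / ℤ` semistable, `Δ ≠ 0`, WITHOUT transvection mod `p`:
  `rhoR_unr` (unramified outside `p`, `MinkA` shape), `not_dvd_card_im` (`p ∤ #Im`),
  `eq_top_of_normal_of_map_inertia_le_W` = **(A)**: `Im` is the normal closure of `ρ̄(I_A)`, `A ∣ p`,
  `map_map_inertia_eq_range_W` : every commutative quotient of `Im` is the image of `I_A`,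
  `isCyclic_map_inertia_W` = **(B)**: for `χ : Im →* H` with `χ(ρ̄ I_A)` an `ℓ`-group, `ℓ ≠ p`,
  `χ(ρ̄ I_A)` is cyclic.
-/
import Mathlib
import Fermat.Agent.GE8.Irr2.Transv
import Fermat.Agent.GE8.Irr2.MinkA
import Fermat.Agent.GJ.Pkg

set_option autoImplicit false
set_option linter.unusedSectionVars false
set_option linter.unusedVariables false

namespace Fermat.Agent.GE8.Irr2.MinkAPlug

open Module
open WeierstrassCurve WeierstrassCurve.Affine WeierstrassCurve.Affine.Point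
open Fermat.Agent.S51_helper12 Fermat.Agent.GB.Top.FreyTwo.Transvection
open Fermat.Agent.GE8.Irr2.Transv Fermat.Agent.Common_helper32

/-! ### the image group -/

section Image

variable (E : WeierstrassCurve ℚ) (p : ℕ)

/-- `ρ̄` with values in the unit group. -/
noncomputable def rhoU : GalQ →* (Module.End (ZMod p) (Tors E p))ˣ :=
  (rhoBar E p).toHomUnits

theorem coe_rhoU (σ : GalQ) :
    ((rhoU E p σ : (Module.End (ZMod p) (Tors E p))ˣ) : Module.End (ZMod p) (Tors E p)) =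
      rhoBar E p σ := rfl

/-- the image of `ρ̄`, a subgroup of `GL(E[p])`. -/
noncomputable abbrev Im : Subgroup (Module.End (ZMod p) (Tors E p))ˣ := (rhoU E p).range

/-- `ρ̄` as a surjection onto its image. -/
noncomputable def rhoR : GalQ →* Im E p := (rhoU E p).rangeRestrict

theorem coe_rhoR (σ : GalQ) :
    (((rhoR E p σ : Im E p) : (Module.End (ZMod p) (Tors E p))ˣ) :
      Module.End (ZMod p) (Tors E p)) = rhoBar E p σ := rfl

theorem rhoR_surjective : Function.Surjective (rhoR E p) :=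
  (rhoU E p).rangeRestrict_surjective

theorem rhoR_eq_one_iff (σ : GalQ) : rhoR E p σ = 1 ↔ rhoBar E p σ = 1 := by
  constructor
  · intro h
    have := congrArg (fun g : Im E p =>
      ((g : (Module.End (ZMod p) (Tors E p))ˣ) : Module.End (ZMod p) (Tors E p))) h
    simpa [coe_rhoR] using this
  · intro h
    apply Subtype.ext
    apply Units.ext
    rw [coe_rhoR, h]
    rfl

/-- element form of the image: every element is `ρ̄ σ`. -/
theorem exists_eq_rhoR (g : Im E p) : ∃ σ : GalQ, rhoR E p σ = g := rhoR_surjective E p g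

/-- finite level, prelude shape. -/
theorem rhoR_level [Finite (Tors E p)] :
    ∃ L : IntermediateField ℚ Qb, FiniteDimensional ℚ L ∧
      ∀ σ : GQ, (∀ x ∈ L, σ x = x) → rhoR E p σ = 1 := by
  obtain ⟨L, hL, h⟩ := Fermat.Agent.GJ.Pkg.finiteLevel_galoisRepModuleEnd E p
  exact ⟨L, hL, fun σ hσ => (rhoR_eq_one_iff E p σ).2 (h σ hσ)⟩

end Image

/-! ### the order of `GL₂(𝔽_p)` -/

section Card

variable {p : ℕ} [hp : Fact p.Prime] {V : Type*} [AddCommGroup V] [Module (ZMod p) V]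

/-- `#GL(V) = (p² - 1)(p² - p)` for a `ZMod p`-module with `p²` elements. -/
theorem card_units_end (hcard : Nat.card V = p ^ 2) :
    Nat.card (Module.End (ZMod p) V)ˣ = (p ^ 2 - 1) * (p ^ 2 - p) := by
  obtain ⟨hmf, hrk⟩ := finrank_eq_two_of_card hcard
  let b : Basis (Fin 2) (ZMod p) V := Module.finBasisOfFinrankEq (ZMod p) V hrk
  have e : (Module.End (ZMod p) V)ˣ ≃* GL (Fin 2) (ZMod p) :=
    Units.mapEquiv (LinearMap.toMatrixAlgEquiv b).toMulEquiv
  rw [Nat.card_congr e.toEquiv, Matrix.card_GL_field, ZMod.card, Fin.prod_univ_two]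
  simp

end Card

section CardIm

variable (E : WeierstrassCurve ℚ) (p : ℕ) [hp : Fact p.Prime]

theorem finite_units_end (hcard : Nat.card (Tors E p) = p ^ 2) :
    Finite (Module.End (ZMod p) (Tors E p))ˣ := by
  apply Nat.finite_of_card_ne_zero
  rw [card_units_end hcard]
  have h1 : 1 < p ^ 2 := Nat.one_lt_pow (by norm_num) hp.out.one_lt
  have h2 : p < p ^ 2 := by
    calc p = p ^ 1 := (pow_one p).symm
      _ < p ^ 2 := Nat.pow_lt_pow_right hp.out.one_lt (by norm_num)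
  exact Nat.mul_ne_zero (Nat.sub_ne_zero_of_lt h1) (Nat.sub_ne_zero_of_lt h2)

theorem finite_im (hcard : Nat.card (Tors E p) = p ^ 2) : Finite (Im E p) := by
  have := finite_units_end E p hcard
  infer_instance

/-- `#Im ∣ (p² - 1)(p² - p)`. -/
theorem card_im_dvd (hcard : Nat.card (Tors E p) = p ^ 2) :
    Nat.card (Im E p) ∣ (p ^ 2 - 1) * (p ^ 2 - p) := by
  rw [← card_units_end hcard]
  exact Subgroup.card_subgroup_dvd_card _

/-- without transvection the image has order prime to `p` (Cauchy). -/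
theorem not_dvd_card_im_of_forall (hcard : Nat.card (Tors E p) = p ^ 2)
    (h : ∀ σ : GalQ, rhoBar E p σ ^ p = 1 → rhoBar E p σ = 1) :
    ¬ p ∣ Nat.card (Im E p) := by
  intro hdvd
  have := finite_im E p hcard
  obtain ⟨g, hg⟩ := exists_prime_orderOf_dvd_card' (G := Im E p) p hdvd
  obtain ⟨σ, rfl⟩ := exists_eq_rhoR E p g
  have hpow : rhoR E p σ ^ p = 1 := by
    have h3 := pow_orderOf_eq_one (rhoR E p σ)
    rwa [hg] at h3
  have h1 : rhoBar E p σ ^ p = 1 := by
    have := congrArg (fun g : Im E p =>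
      ((g : (Module.End (ZMod p) (Tors E p))ˣ) : Module.End (ZMod p) (Tors E p))) hpow
    simpa [coe_rhoR] using this
  have h2 : rhoR E p σ = 1 := (rhoR_eq_one_iff E p σ).2 (h σ h1)
  rw [h2, orderOf_one] at hg
  exact hp.out.one_lt.ne hg

end CardIm

/-! ### semistable curves without transvection -/

section Semistable

variable (W : WeierstrassCurve ℤ) {p : ℕ}

/-- unramified outside `p`, in the `MinkA` shape. -/
theorem rhoR_unr (hss : W.IsSemistableModel) (hΔ : W.Δ ≠ 0) (hp : p.Prime)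
    (hno : ¬ HasTransvectionModP (W.map (Int.castRingHom ℚ)) p) :
    ∀ l : ℕ, l.Prime → l ≠ p → ∃ A' : ValuationSubring Qb, A'.LiesOverPrime l ∧
      ∀ σ ∈ A'.inertiaSubgroupIn ℚ, rhoR (W.map (Int.castRingHom ℚ)) p σ = 1 := by
  intro l hl hlp
  obtain ⟨A', hA'⟩ := exists_liesOverPrime l hl
  refine ⟨A', hA', fun σ hσ => (rhoR_eq_one_iff _ p σ).2 ?_⟩
  exact (unramified_and_not_dvd_of_not_hasTransvection W hss hΔ hp hno).2.1 l hl hlp A' hA' σ hσ

theorem finite_tors (hΔ : W.Δ ≠ 0) (hp : p.Prime) :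
    Finite (Tors (W.map (Int.castRingHom ℚ)) p) := by
  apply Nat.finite_of_card_ne_zero
  rw [card_tors W hΔ hp]
  exact pow_ne_zero 2 hp.ne_zero

/-- finite level. -/
theorem rhoR_level_W (hΔ : W.Δ ≠ 0) (hp : p.Prime) :
    ∃ L : IntermediateField ℚ Qb, FiniteDimensional ℚ L ∧
      ∀ σ : GQ, (∀ x ∈ L, σ x = x) → rhoR (W.map (Int.castRingHom ℚ)) p σ = 1 := by
  have := finite_tors W hΔ hp
  exact rhoR_level _ p

theorem finite_im_W (hΔ : W.Δ ≠ 0) (hp : p.Prime) :
    Finite (Im (W.map (Int.castRingHom ℚ)) p) := by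
  have : Fact p.Prime := ⟨hp⟩
  exact finite_im _ p (card_tors W hΔ hp)

/-- `p ∤ #Im`. -/
theorem not_dvd_card_im (hss : W.IsSemistableModel) (hΔ : W.Δ ≠ 0) (hp : p.Prime)
    (hno : ¬ HasTransvectionModP (W.map (Int.castRingHom ℚ)) p) :
    ¬ p ∣ Nat.card (Im (W.map (Int.castRingHom ℚ)) p) := by
  have : Fact p.Prime := ⟨hp⟩
  exact not_dvd_card_im_of_forall _ p (card_tors W hΔ hp)
    (unramified_and_not_dvd_of_not_hasTransvection W hss hΔ hp hno).2.2.1

/-- `#Im ∣ (p² - 1)(p - 1)`. -/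
theorem card_im_dvd_W (hss : W.IsSemistableModel) (hΔ : W.Δ ≠ 0) (hp : p.Prime)
    (hno : ¬ HasTransvectionModP (W.map (Int.castRingHom ℚ)) p) :
    Nat.card (Im (W.map (Int.castRingHom ℚ)) p) ∣ (p ^ 2 - 1) * (p - 1) := by
  have : Fact p.Prime := ⟨hp⟩
  have h1 := card_im_dvd _ p (card_tors W hΔ hp)
  have h2 := not_dvd_card_im W hss hΔ hp hno
  have e : (p ^ 2 - 1) * (p ^ 2 - p) = p * ((p ^ 2 - 1) * (p - 1)) := by
    have : p ^ 2 - p = p * (p - 1) := by
      rw [Nat.mul_sub, mul_one, pow_two]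
    rw [this]
    ring
  rw [e] at h1
  exact ((Nat.Prime.coprime_iff_not_dvd hp).2 h2).symm.dvd_of_dvd_mul_left h1

/-- **(A)** `Im` is the normal closure of `ρ̄(I_A)`, `A ∣ p`. -/
theorem eq_top_of_normal_of_map_inertia_le_W (hss : W.IsSemistableModel) (hΔ : W.Δ ≠ 0)
    (hp : p.Prime) (hno : ¬ HasTransvectionModP (W.map (Int.castRingHom ℚ)) p)
    (A : ValuationSubring Qb) (hA : A.LiesOverPrime p)
    (M : Subgroup (Im (W.map (Int.castRingHom ℚ)) p)) (hM : M.Normal)
    (hI : (A.inertiaSubgroupIn ℚ).map (rhoR (W.map (Int.castRingHom ℚ)) p) ≤ M) : M = ⊤ :=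
  Fermat.Agent.GE8.Irr2.MinkA.eq_top_of_normal_of_map_inertia_le _ (rhoR_level_W W hΔ hp)
    (rhoR_surjective _ p) A hA (rhoR_unr W hss hΔ hp hno) M hM hI

/-- every commutative quotient of `Im` is the image of `I_A`. -/
theorem map_map_inertia_eq_range_W (hss : W.IsSemistableModel) (hΔ : W.Δ ≠ 0)
    (hp : p.Prime) (hno : ¬ HasTransvectionModP (W.map (Int.castRingHom ℚ)) p)
    (A : ValuationSubring Qb) (hA : A.LiesOverPrime p)
    {C : Type*} [CommGroup C] (χ : Im (W.map (Int.castRingHom ℚ)) p →* C) :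
    ((A.inertiaSubgroupIn ℚ).map (rhoR (W.map (Int.castRingHom ℚ)) p)).map χ = χ.range :=
  Fermat.Agent.GE8.Irr2.MinkA.map_map_inertia_eq_range _ (rhoR_level_W W hΔ hp)
    (rhoR_surjective _ p) A hA (rhoR_unr W hss hΔ hp hno) χ

/-- **(B)** an `ℓ`-group image (`ℓ ≠ p`) of `ρ̄(I_A)` is cyclic. -/
theorem isCyclic_map_inertia_W (hΔ : W.Δ ≠ 0) (hp : p.Prime)
    (A : ValuationSubring Qb) (hA : A.LiesOverPrime p)
    {H : Type*} [Group H] (χ : Im (W.map (Int.castRingHom ℚ)) p →* H)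
    (ℓ : ℕ) [Fact ℓ.Prime] (hℓp : ℓ ≠ p)
    (hℓ : IsPGroup ℓ ((A.inertiaSubgroupIn ℚ).map
      (χ.comp (rhoR (W.map (Int.castRingHom ℚ)) p)))) :
    IsCyclic ((A.inertiaSubgroupIn ℚ).map (χ.comp (rhoR (W.map (Int.castRingHom ℚ)) p))) := by
  obtain ⟨L, hL, h⟩ := rhoR_level_W W hΔ hp
  refine Fermat.Agent.GP.Loc.TamePQuot.isCyclic_map_inertia_of_isPGroup A hp hA
    (χ.comp (rhoR (W.map (Int.castRingHom ℚ)) p)) ⟨L, hL, fun σ hσ => ?_⟩ ℓ hℓp hℓ
  rw [MonoidHom.comp_apply, h σ hσ, map_one]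

end Semistable

end Fermat.Agent.GE8.Irr2.MinkAPlug
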