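/-
GATE-E (S59 pre-work) / E8.6 IRR2 at `p = 3`, WITHOUT any number field (helper21).

**`hasTransvectionModP_three`** : `W / ℤ` semistable, `Δ ≠ 0`, `ρ̄_{W,3}` irreducible
⟹ `HasTransvectionModP (W.map (Int.castRingHom ℚ)) 3` (so branch T of helper43's E8.6 applies).

Proof.  Suppose not.  By helper90's `Transv.unramified_and_not_dvd_of_not_hasTransvection`, `ρ̄` is
unramified outside `3` and its image `Im` has order prime to `3`; `#GL₂(𝔽₃) = 48`, so `Im` is a
`2`-group.  By `MinkA` (Minkowski + the normaliser condition in `2`-groups + the tame relation at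
`3`), `Im` is commutative and `g ^ 3 = g`, i.e. `g ^ 2 = 1`, for every `g ∈ Im`.  A commuting
family of involutions of a plane has a common stable line
(`exists_stable_of_commuting_involutions`): `ρ̄` is reducible.
-/
import Mathlib
import Fermat.Agent.GE8.Irr2.MinkAPlug
import Fermat.Prelude.Def_FLTPrelim_ModularRep

set_option autoImplicit false
set_option linter.unusedSectionVars false
set_option linter.unusedVariables false

namespace Fermat.Agent.GE8.Irr2.PThree

open Module
open WeierstrassCurve WeierstrassCurve.Affine WeierstrassCurve.Affine.Point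
open Fermat.Agent.S51_helper12 Fermat.Agent.GB.Top.FreyTwo.Transvection
open Fermat.Agent.GE8.Irr2.Transv Fermat.Agent.GE8.Irr2.MinkAPlug Fermat.Agent.Common_helper32

/-! ### linear algebra: commuting involutions have a common stable line -/

section LinAlg

variable {K V : Type*} [Field K] [AddCommGroup V] [Module K V]

/-- a commuting family of involutions of a vector space of dimension `≥ 2` has a common stable
subspace which is neither `⊥` nor `⊤`. -/
theorem exists_stable_of_commuting_involutions [FiniteDimensional K V]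
    (hdim : 2 ≤ finrank K V) (S : Set (Module.End K V))
    (hsq : ∀ g ∈ S, g * g = 1) (hcomm : ∀ g ∈ S, ∀ h ∈ S, g * h = h * g) :
    ∃ N : Submodule K V, N ≠ ⊥ ∧ N ≠ ⊤ ∧ ∀ g ∈ S, ∀ x ∈ N, g x ∈ N := by
  by_cases hex : ∃ g ∈ S, LinearMap.ker (g - 1) ≠ ⊥ ∧ LinearMap.ker (g - 1) ≠ ⊤
  · obtain ⟨g, hg, h1, h2⟩ := hex
    refine ⟨LinearMap.ker (g - 1), h1, h2, fun h hh x hx => ?_⟩
    rw [LinearMap.mem_ker, LinearMap.sub_apply, Module.End.one_apply, sub_eq_zero] at hx ⊢
    have hc := hcomm g hg h hh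
    have : g (h x) = h (g x) := by
      rw [← Module.End.mul_apply, hc, Module.End.mul_apply]
    rw [this, hx]
  · push Not at hex
    -- every element of `S` is `±1`
    have hpm : ∀ g ∈ S, (∀ x, g x = x) ∨ (∀ x, g x = -x) := by
      intro g hg
      by_cases hb : LinearMap.ker (g - 1) = ⊥
      · right
        intro x
        have h1 : (g - 1) (g x + x) = 0 := by
          rw [LinearMap.sub_apply, Module.End.one_apply, map_add, ← Module.End.mul_apply,
            hsq g hg, Module.End.one_apply]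
          abel
        have h2 : g x + x ∈ LinearMap.ker (g - 1) := LinearMap.mem_ker.2 h1
        rw [hb, Submodule.mem_bot] at h2
        exact eq_neg_of_add_eq_zero_left h2
      · left
        intro x
        have ht := hex g hg hb
        have : x ∈ LinearMap.ker (g - 1) := by rw [ht]; trivial
        rw [LinearMap.mem_ker, LinearMap.sub_apply, Module.End.one_apply, sub_eq_zero] at this
        exact this
    have hnt : Nontrivial V := Module.nontrivial_of_finrank_pos (R := K) (by omega)
    obtain ⟨v, hv⟩ := exists_ne (0 : V)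
    refine ⟨K ∙ v, ?_, ?_, fun g hg x hx => ?_⟩
    · intro h
      have : v ∈ K ∙ v := Submodule.mem_span_singleton_self v
      rw [h, Submodule.mem_bot] at this
      exact hv this
    · intro h
      have h1 : finrank K (K ∙ v) = 1 := finrank_span_singleton hv
      rw [h, finrank_top] at h1
      omega
    · rcases hpm g hg with h | h
      · rw [h x]; exact hx
      · rw [h x]; exact Submodule.neg_mem _ hx

end LinAlg

/-! ### the image at `3` is a `2`-group -/

section Three

variable (W : WeierstrassCurve ℤ)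

/-- without transvection the image of `ρ̄_{W,3}` is a `2`-group. -/
theorem isPGroup_two_im (hss : W.IsSemistableModel) (hΔ : W.Δ ≠ 0)
    (hno : ¬ HasTransvectionModP (W.map (Int.castRingHom ℚ)) 3) :
    IsPGroup 2 (Im (W.map (Int.castRingHom ℚ)) 3) := by
  have hdvd := card_im_dvd_W W hss hΔ Nat.prime_three hno
  have h16 : (3 ^ 2 - 1) * (3 - 1) = 2 ^ 4 := by norm_num
  rw [h16] at hdvd
  obtain ⟨k, -, hk⟩ := (Nat.dvd_prime_pow Nat.prime_two).1 hdvd
  exact IsPGroup.of_card hk

/-- without transvection: `ρ̄(σ) ^ 2 = 1` and the image is commutative. -/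
theorem sq_eq_one_and_comm (hss : W.IsSemistableModel) (hΔ : W.Δ ≠ 0)
    (hno : ¬ HasTransvectionModP (W.map (Int.castRingHom ℚ)) 3) :
    (∀ σ : GalQ, rhoBar (W.map (Int.castRingHom ℚ)) 3 σ *
        rhoBar (W.map (Int.castRingHom ℚ)) 3 σ = 1) ∧
    (∀ σ τ : GalQ, rhoBar (W.map (Int.castRingHom ℚ)) 3 σ *
        rhoBar (W.map (Int.castRingHom ℚ)) 3 τ =
      rhoBar (W.map (Int.castRingHom ℚ)) 3 τ * rhoBar (W.map (Int.castRingHom ℚ)) 3 σ) := by
  have hp3 : Nat.Prime 3 := Nat.prime_three
  have hfin := finite_im_W W hΔ hp3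
  have hΓ := isPGroup_two_im W hss hΔ hno
  obtain ⟨A, hA⟩ := exists_liesOverPrime 3 hp3
  have hlev := rhoR_level_W W hΔ hp3
  have hsurj := rhoR_surjective (W.map (Int.castRingHom ℚ)) 3
  have hunr := rhoR_unr W hss hΔ hp3 hno
  refine ⟨fun σ => ?_, fun σ τ => ?_⟩
  · have h := Fermat.Agent.GE8.Irr2.MinkA.pow_pred_eq_one_of_isPGroup _ hlev hsurj hp3 A hA hunr
      (ℓ := 2) (by norm_num) hΓ (rhoR (W.map (Int.castRingHom ℚ)) 3 σ)
    have h2 := congrArg (fun g : Im (W.map (Int.castRingHom ℚ)) 3 =>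
      ((g : (Module.End (ZMod 3) (Tors (W.map (Int.castRingHom ℚ)) 3))ˣ) :
        Module.End (ZMod 3) (Tors (W.map (Int.castRingHom ℚ)) 3))) h
    simpa [coe_rhoR, pow_two] using h2
  · have h := Fermat.Agent.GE8.Irr2.MinkA.comm_of_isPGroup _ hlev hsurj hp3 A hA hunr
      (ℓ := 2) (by norm_num) hΓ (rhoR (W.map (Int.castRingHom ℚ)) 3 σ)
      (rhoR (W.map (Int.castRingHom ℚ)) 3 τ)
    have h2 := congrArg (fun g : Im (W.map (Int.castRingHom ℚ)) 3 =>
      ((g : (Module.End (ZMod 3) (Tors (W.map (Int.castRingHom ℚ)) 3))ˣ) :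
        Module.End (ZMod 3) (Tors (W.map (Int.castRingHom ℚ)) 3))) h
    simpa [coe_rhoR] using h2

/-- **E8.6 IRR2 at `p = 3`**: a semistable curve with irreducible `ρ̄_{W,3}` has a transvection in
the image of `ρ̄_{W,3}`. -/
theorem hasTransvectionModP_three (hΔ : W.Δ ≠ 0) (hss : W.IsSemistableModel)
    (hirr : W.ModRepIsIrreducible 3) :
    HasTransvectionModP (W.map (Int.castRingHom ℚ)) 3 := by
  by_contra hno
  obtain ⟨hsq, hcomm⟩ := sq_eq_one_and_comm W hss hΔ hno
  obtain ⟨hmf, hrk⟩ := finrank_eq_two_of_card (p := 3) (card_tors W hΔ Nat.prime_three)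
  obtain ⟨N, hN0, hN1, hst⟩ := exists_stable_of_commuting_involutions (K := ZMod 3)
    (V := Tors (W.map (Int.castRingHom ℚ)) 3) (le_of_eq hrk.symm)
    (Set.range (rhoBar (W.map (Int.castRingHom ℚ)) 3))
    (by rintro _ ⟨σ, rfl⟩; exact hsq σ)
    (by rintro _ ⟨σ, rfl⟩ _ ⟨τ, rfl⟩; exact hcomm σ τ)
  have hstable : IsGaloisStable (K := AlgebraicClosure ℚ) ℚ N := by
    intro σ x hx
    have := hst _ ⟨σ, rfl⟩ x hx
    rwa [galoisRepModuleEnd_apply] at this
  rcases hirr.2 N hstable with h | h
  · exact hN0 h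
  · exact hN1 h

end Three

end Fermat.Agent.GE8.Irr2.PThree
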