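/-
GATE-E / E8.6 IRR2, step (D) of helper81's route 6808 in COMMUTATOR form (helper43).

Two invertible endomorphisms `g₁ g₂` of a plane `V` over a field `K` of characteristic `p` which
stabilise a common line `L` have a commutator `c` with `(c − 1)² = 0`, hence `c ^ p = 1`.  If the
group they live in has no element of order `p`, they commute.  (No Maschke / averaging needed.)

* `end_comm_of_finrank_eq_one`   : endomorphisms of a line commute;
* `comm_sub_one_sq_eq_zero`      : `(g₁ g₂ g₁⁻¹ g₂⁻¹ − 1)² = 0`;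
* `one_add_pow_of_sq_eq_zero`    : `n² = 0 ⟹ (1 + n)^m = 1 + m • n`;
* `commute_of_stable_line`       : the statement above;
* `commute_of_stable_baseChange` : the `ResidualGaloisRep` form: a proper nonzero `G`-stable
  subspace of `ρ ⊗ K` + `(∀ σ, ρ(σ)^p = 1 → ρ(σ) = 1)`  ⟹  `ρ(G)` is commutative;
* `isTWHyp_of_noncomm`, `isAbsolutelyIrreducible_of_noncomm` : the frozen S56 binders `hTW`, `habs`
  from non-commuting pairs in (the image of) every subgroup of index `2` / in the whole image.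
-/
import Mathlib
import Fermat.Agent.GB.Def.TWHyp

set_option autoImplicit false

namespace Fermat.Agent.GE8.Irr2.Diag

open Module

section LinAlg

variable {K : Type*} [Field K] {V : Type*} [AddCommGroup V] [Module K V]

/-- endomorphisms of a line commute. -/
theorem end_comm_of_finrank_eq_one {U : Type*} [AddCommGroup U] [Module K U]
    (hU : finrank K U = 1) (f g : Module.End K U) : f * g = g * f := by
  obtain ⟨u, -, hu⟩ := finrank_eq_one_iff'.1 hU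
  obtain ⟨a, ha⟩ := hu (f u)
  obtain ⟨b, hb⟩ := hu (g u)
  refine LinearMap.ext fun w => ?_
  obtain ⟨c, rfl⟩ := hu w
  simp only [Module.End.mul_apply, map_smul, ← ha, ← hb]
  rw [smul_comm a b u]

variable (hV : finrank K V = 2) (L : Submodule K V) (hL0 : L ≠ ⊥) (hL1 : L ≠ ⊤)

include hV hL0 hL1 in
theorem finrank_line : finrank K L = 1 := by
  have hfin : Module.Finite K V := Module.finite_of_finrank_pos (by rw [hV]; norm_num)
  have h1 : finrank K L < 2 := by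
    rw [← hV]
    exact Submodule.finrank_lt hL1
  have h0 : 0 < finrank K L := by
    rw [Nat.pos_iff_ne_zero]
    intro h
    exact hL0 (Submodule.finrank_eq_zero.1 h)
  omega

include hV hL0 hL1 in
theorem finrank_quot : finrank K (V ⧸ L) = 1 := by
  have hfin : Module.Finite K V := Module.finite_of_finrank_pos (by rw [hV]; norm_num)
  have h := Submodule.finrank_quotient_add_finrank L
  rw [hV, finrank_line hV L hL0 hL1] at h
  omega

include hV hL0 hL1 in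
/-- the additive commutator of two endomorphisms stabilising the line `L` kills `L`. -/
theorem comm_apply_eq_zero (g₁ g₂ : Module.End K V) (h₁ : ∀ x ∈ L, g₁ x ∈ L)
    (h₂ : ∀ x ∈ L, g₂ x ∈ L) {x : V} (hx : x ∈ L) : (g₁ * g₂ - g₂ * g₁) x = 0 := by
  have hc := end_comm_of_finrank_eq_one (finrank_line hV L hL0 hL1)
    (g₁.restrict h₁) (g₂.restrict h₂)
  have h3 := congrArg (fun f : Module.End K L => ((f ⟨x, hx⟩ : L) : V)) hc
  simp only [Module.End.mul_apply, LinearMap.coe_restrict_apply] at h3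
  rw [LinearMap.sub_apply, Module.End.mul_apply, Module.End.mul_apply, h3, sub_self]

include hV hL0 hL1 in
/-- the additive commutator of two endomorphisms stabilising the line `L` maps into `L`. -/
theorem comm_apply_mem (g₁ g₂ : Module.End K V) (h₁ : ∀ x ∈ L, g₁ x ∈ L)
    (h₂ : ∀ x ∈ L, g₂ x ∈ L) (x : V) : (g₁ * g₂ - g₂ * g₁) x ∈ L := by
  have h₁' : L ≤ L.comap g₁ := fun y hy => h₁ y hy
  have h₂' : L ≤ L.comap g₂ := fun y hy => h₂ y hy
  have hc := end_comm_of_finrank_eq_one (finrank_quot hV L hL0 hL1)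
    (L.mapQ L g₁ h₁') (L.mapQ L g₂ h₂')
  have h3 := LinearMap.congr_fun hc (L.mkQ x)
  simp only [Module.End.mul_apply, Submodule.mkQ_apply, Submodule.mapQ_apply] at h3
  rw [LinearMap.sub_apply, Module.End.mul_apply, Module.End.mul_apply,
    ← Submodule.Quotient.mk_eq_zero L, Submodule.Quotient.mk_sub, h3, sub_self]

include hV hL0 hL1 in
/-- **the commutator of two automorphisms stabilising a common line is unipotent.** -/
theorem comm_sub_one_sq_eq_zero (g₁ g₂ k₁ k₂ : Module.End K V)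
    (hg₁ : g₁ * k₁ = 1) (hg₂ : g₂ * k₂ = 1)
    (h₁ : ∀ x ∈ L, g₁ x ∈ L) (h₂ : ∀ x ∈ L, g₂ x ∈ L)
    (h₁' : ∀ x ∈ L, k₁ x ∈ L) (h₂' : ∀ x ∈ L, k₂ x ∈ L) :
    (g₁ * g₂ * k₁ * k₂ - 1) ^ 2 = 0 := by
  have hc : g₁ * g₂ * k₁ * k₂ - 1 = (g₁ * g₂ - g₂ * g₁) * (k₁ * k₂) := by
    have h : g₂ * g₁ * (k₁ * k₂) = 1 := by
      rw [mul_assoc, ← mul_assoc g₁, hg₁, one_mul, hg₂]
    rw [sub_mul, h, ← mul_assoc]
  rw [hc, pow_two]
  refine LinearMap.ext fun x => ?_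
  rw [Module.End.mul_apply, LinearMap.zero_apply, Module.End.mul_apply]
  apply comm_apply_eq_zero hV L hL0 hL1 g₁ g₂ h₁ h₂
  rw [Module.End.mul_apply]
  exact h₁' _ (h₂' _ (comm_apply_mem hV L hL0 hL1 g₁ g₂ h₁ h₂ _))

omit [Field K] [Module K V] in
/-- `n² = 0 ⟹ (1 + n)^m = 1 + m • n`. -/
theorem one_add_pow_of_sq_eq_zero {R : Type*} [Ring R] (n : R) (hn : n ^ 2 = 0) (m : ℕ) :
    (1 + n) ^ m = 1 + m • n := by
  induction m with
  | zero => simp
  | succ m ih =>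
    rw [pow_succ, ih, mul_add, mul_one, add_mul, one_mul, smul_mul_assoc, ← pow_two, hn,
      smul_zero, add_zero, succ_nsmul]
    abel

/-- a unipotent endomorphism in characteristic `p` has `p`-th power `1`. -/
theorem pow_eq_one_of_sub_one_sq {p : ℕ} (hpK : ((p : ℕ) : K) = 0) (c : Module.End K V)
    (hc : (c - 1) ^ 2 = 0) : c ^ p = 1 := by
  have h := one_add_pow_of_sq_eq_zero (c - 1) hc p
  rw [add_sub_cancel] at h
  rw [h]
  have : p • (c - 1) = ((p : ℕ) : K) • (c - 1) := by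
    rw [Nat.cast_smul_eq_nsmul]
  rw [this, hpK, zero_smul, add_zero]

include hV hL0 hL1 in
/-- **(D), commutator form.** -/
theorem commute_of_stable_line {p : ℕ} (hpK : ((p : ℕ) : K) = 0) (g₁ g₂ k₁ k₂ : Module.End K V)
    (hg₁ : g₁ * k₁ = 1) (hg₂ : g₂ * k₂ = 1) (hk₁ : k₁ * g₁ = 1) (hk₂ : k₂ * g₂ = 1)
    (h₁ : ∀ x ∈ L, g₁ x ∈ L) (h₂ : ∀ x ∈ L, g₂ x ∈ L)
    (h₁' : ∀ x ∈ L, k₁ x ∈ L) (h₂' : ∀ x ∈ L, k₂ x ∈ L)
    (hfree : (g₁ * g₂ * k₁ * k₂) ^ p = 1 → g₁ * g₂ * k₁ * k₂ = 1) : g₁ * g₂ = g₂ * g₁ := by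
  have hc := hfree (pow_eq_one_of_sub_one_sq hpK _
    (comm_sub_one_sq_eq_zero hV L hL0 hL1 g₁ g₂ k₁ k₂ hg₁ hg₂ h₁ h₂ h₁' h₂'))
  calc g₁ * g₂ = g₁ * g₂ * k₁ * k₂ * (g₂ * g₁) := by
        rw [mul_assoc (g₁ * g₂ * k₁), ← mul_assoc k₂, hk₂, one_mul, mul_assoc (g₁ * g₂), hk₁,
          mul_one]
    _ = g₂ * g₁ := by rw [hc, one_mul]

end LinAlg

section Rep

open Fermat.Agent.GB.Def.TWHyp

/-- `ℚ̄`. -/
local notation "Qb" => AlgebraicClosure ℚ

variable {k : Type} [Field k]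

/-- the defining formula of `baseChange` on endomorphisms. -/
theorem baseChange_ρ (ρ : ResidualGaloisRep k) (K : Type) [Field K] [Algebra k K]
    (σ : Qb ≃ₐ[ℚ] Qb) :
    (ρ.baseChange K).ρ σ = Module.End.baseChangeHom k K ρ.V (ρ.ρ σ) := rfl

/-- **(D), representation form**: if `ρ ⊗ K` has a proper nonzero subspace stable under a
subgroup `G`, and the image of `ρ` has no element of order `p = char`, then `ρ(G)` is
commutative. -/
theorem commute_of_stable_baseChange {p : ℕ} (hp0 : ((p : ℕ) : k) = 0) (ρ : ResidualGaloisRep k)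
    (hfree : ∀ σ : Qb ≃ₐ[ℚ] Qb, ρ.ρ σ ^ p = 1 → ρ.ρ σ = 1)
    (K : Type) [Field K] [Algebra k K] (G : Subgroup (Qb ≃ₐ[ℚ] Qb))
    (V : Submodule K (ρ.baseChange K).V)
    (hV : ∀ σ ∈ G, ∀ x ∈ V, (ρ.baseChange K).ρ σ x ∈ V) (hV0 : V ≠ ⊥) (hV1 : V ≠ ⊤)
    {g₁ g₂ : Qb ≃ₐ[ℚ] Qb} (hg₁ : g₁ ∈ G) (hg₂ : g₂ ∈ G) :
    ρ.ρ g₁ * ρ.ρ g₂ = ρ.ρ g₂ * ρ.ρ g₁ := by
  have hpK : ((p : ℕ) : K) = 0 := by
    rw [← map_natCast (algebraMap k K), hp0, map_zero]
  have hinj : Function.Injective (Module.End.baseChangeHom k K ρ.V) :=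
    LinearMap.baseChangeHom_injective k ρ.V K
  set R := (ρ.baseChange K).ρ with hR
  have hmul : ∀ a b, R a * R b = R (a * b) := fun a b => (map_mul R a b).symm
  have hinv : ∀ a, R a * R a⁻¹ = 1 := fun a => by rw [hmul, mul_inv_cancel, map_one]
  have hinv' : ∀ a, R a⁻¹ * R a = 1 := fun a => by rw [hmul, inv_mul_cancel, map_one]
  have hcomm : R g₁ * R g₂ = R g₂ * R g₁ := by
    refine commute_of_stable_line (ρ.baseChange K).finrank_eq V hV0 hV1 hpK (R g₁) (R g₂)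
      (R g₁⁻¹) (R g₂⁻¹) (hinv g₁) (hinv g₂) (hinv' g₁) (hinv' g₂) (hV g₁ hg₁) (hV g₂ hg₂)
      (hV _ (G.inv_mem hg₁)) (hV _ (G.inv_mem hg₂)) ?_
    rw [hmul, hmul, hmul, hR, baseChange_ρ, ← map_pow]
    intro h
    have h1 : ρ.ρ (g₁ * g₂ * g₁⁻¹ * g₂⁻¹) ^ p = 1 := hinj (by rw [h, map_one])
    rw [hfree _ h1, map_one]
  apply hinj
  rw [map_mul, map_mul, ← baseChange_ρ, ← baseChange_ρ]
  exact hcomm

/-- the no-`p`-torsion clause survives base change. -/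
theorem hfree_baseChange {p : ℕ} (ρ : ResidualGaloisRep k)
    (hfree : ∀ σ : Qb ≃ₐ[ℚ] Qb, ρ.ρ σ ^ p = 1 → ρ.ρ σ = 1) (K : Type) [Field K] [Algebra k K]
    (σ : Qb ≃ₐ[ℚ] Qb) (h : (ρ.baseChange K).ρ σ ^ p = 1) : (ρ.baseChange K).ρ σ = 1 := by
  have hinj : Function.Injective (Module.End.baseChangeHom k K ρ.V) :=
    LinearMap.baseChangeHom_injective k ρ.V K
  rw [baseChange_ρ, ← map_pow] at h
  have h1 : ρ.ρ σ ^ p = 1 := hinj (by rw [h, map_one])
  rw [baseChange_ρ, hfree σ h1, map_one]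

/-- non-commuting pairs survive base change. -/
theorem noncomm_baseChange (ρ : ResidualGaloisRep k) (K : Type) [Field K] [Algebra k K]
    {g₁ g₂ : Qb ≃ₐ[ℚ] Qb} (h : ρ.ρ g₁ * ρ.ρ g₂ ≠ ρ.ρ g₂ * ρ.ρ g₁) :
    (ρ.baseChange K).ρ g₁ * (ρ.baseChange K).ρ g₂ ≠
      (ρ.baseChange K).ρ g₂ * (ρ.baseChange K).ρ g₁ := by
  have hinj : Function.Injective (Module.End.baseChangeHom k K ρ.V) :=
    LinearMap.baseChangeHom_injective k ρ.V K
  intro h'
  apply h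
  apply hinj
  rw [map_mul, map_mul]
  exact h'

/-- **`hTW` of the frozen S56** from: no element of order `p` in the image, and the image of
every index-two subgroup is non-commutative. -/
theorem isTWHyp_of_noncomm {p : ℕ} (hp0 : ((p : ℕ) : k) = 0) (ρ : ResidualGaloisRep k)
    (hfree : ∀ σ : Qb ≃ₐ[ℚ] Qb, ρ.ρ σ ^ p = 1 → ρ.ρ σ = 1)
    (hnc : ∀ G : Subgroup (Qb ≃ₐ[ℚ] Qb), G.index = 2 →
      ∃ g₁ ∈ G, ∃ g₂ ∈ G, ρ.ρ g₁ * ρ.ρ g₂ ≠ ρ.ρ g₂ * ρ.ρ g₁) : IsTWHyp ρ := by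
  intro K _ _ G hG V hV
  by_contra hcon
  obtain ⟨hV0, hV1⟩ := not_or.mp hcon
  obtain ⟨g₁, hg₁, g₂, hg₂, hne⟩ := hnc G hG
  exact hne (commute_of_stable_baseChange hp0 ρ hfree K G V hV hV0 hV1 hg₁ hg₂)

/-- **`habs` of the frozen S56** from: no element of order `p` in the image, and the image is
non-commutative. -/
theorem isAbsolutelyIrreducible_of_noncomm {p : ℕ} (hp0 : ((p : ℕ) : k) = 0)
    (ρ : ResidualGaloisRep k) (hfree : ∀ σ : Qb ≃ₐ[ℚ] Qb, ρ.ρ σ ^ p = 1 → ρ.ρ σ = 1)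
    (hnc : ∃ g₁ g₂ : Qb ≃ₐ[ℚ] Qb, ρ.ρ g₁ * ρ.ρ g₂ ≠ ρ.ρ g₂ * ρ.ρ g₁) :
    ρ.IsAbsolutelyIrreducible := by
  intro V hV
  by_contra hcon
  obtain ⟨hV0, hV1⟩ := not_or.mp hcon
  obtain ⟨g₁, g₂, hne⟩ := hnc
  exact hne (commute_of_stable_baseChange hp0 ρ hfree (AlgebraicClosure k) ⊤ V
    (fun σ _ x hx => hV σ x hx) hV0 hV1 (Subgroup.mem_top g₁) (Subgroup.mem_top g₂))

end Rep

end Fermat.Agent.GE8.Irr2.Diag
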