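/-
GATE-E / E8.6 IRR2 (helper43, owner; helper10 GRAPH v0 6671 / A1 6679): **statements**.

`W/ℤ` semistable, `Δ ≠ 0`, `W[p]` irreducible, `p ∈ {3, 5}`, `ρ̄ := RhoBar.rb p W hcard₁ hker`.
Target (`Irr2Stmt p`): for every coefficient field `k ⊇ 𝔽_p`
* `habs` : `ρ̄ ⊗ k` is absolutely irreducible;
* `hTW`  : `ρ̄ ⊗ k` stays absolutely irreducible on every index-two subgroup of `G_ℚ`
  (the `hTW` binder of the frozen S56 = `GB.Def.TWHyp.IsTWHyp`);
* `p = 3 → ∃ σ, det ρ̄(σ) = −1 ∧ tr ρ̄(σ) ≠ 0` (the `σ` of E8.3, auxiliary prime `r ≡ 2 (3)`).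

The three leaves (all three being written by other seats, statements pinned here as `Prop`s so
that `Main.lean` compiles before they land):
* `PThreeStmt`      (helper21, `PThree.lean`): `p = 3` ⟹ the image contains a transvection;
* `PrimeToFiveStmt` (helper81, `PrimeToP/`): `p = 5`, no transvection ⟹ `habs ∧ hTW` directly;
* `ThreeStmt`       (helper82, `Three.lean`): `hTW` + `det ∈ {±1}` + `det` onto ⟹ the `σ` of E8.3.
-/
import Fermat.Agent.GB.Setup.RhoBar
import Fermat.Agent.GB.Def.TWHyp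
import Fermat.Agent.GB.Top.FreyTwo.Transvection

set_option autoImplicit false

open WeierstrassCurve WeierstrassCurve.Affine.Point
open scoped WeierstrassCurve.Affine

namespace Fermat.Agent.GE8.Irr2

open Fermat.Agent.GB.Setup.RhoBar Fermat.Agent.GB.Def.TWHyp
open Fermat.Agent.GB.Top.FreyTwo.Transvection

/-- `G_ℚ`. -/
local notation "GQ" => (AlgebraicClosure ℚ ≃ₐ[ℚ] AlgebraicClosure ℚ)

/-- **E8.6 IRR2**, the target statement at the prime `p`. -/
def Irr2Stmt (p : ℕ) [Fact p.Prime] : Prop :=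
  ∀ (W : WeierstrassCurve ℤ), W.Δ ≠ 0 → W.IsSemistableModel → W.ModRepIsIrreducible p →
    ∀ (hcard₁ : Nat.card (Submodule.torsionBy ℤ
        ((W.map (Int.castRingHom ℚ))⁄(AlgebraicClosure ℚ)).Point p) = p ^ 2)
      (hker : GaloisFactorsThroughFiniteLevel
        (galoisRepModuleEnd (K := AlgebraicClosure ℚ) ℚ (W.map (Int.castRingHom ℚ)) p)),
      (∀ (k : Type) [Field k] [Algebra (ZMod p) k],
        ((rb p W hcard₁ hker).baseChange k).IsAbsolutelyIrreducible ∧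
          IsTWHyp ((rb p W hcard₁ hker).baseChange k)) ∧
      (p = 3 → ∃ σ : GQ, LinearMap.det ((rb p W hcard₁ hker).ρ σ) = -1 ∧
        LinearMap.trace (ZMod p) (rb p W hcard₁ hker).V ((rb p W hcard₁ hker).ρ σ) ≠ 0)

/-- leaf (P3), helper21: at `p = 3` the image of `ρ̄` contains a transvection. -/
def PThreeStmt : Prop :=
  ∀ (W : WeierstrassCurve ℤ), W.Δ ≠ 0 → W.IsSemistableModel →
    haveI : Fact (Nat.Prime 3) := ⟨Nat.prime_three⟩
    W.ModRepIsIrreducible 3 → HasTransvectionModP (W.map (Int.castRingHom ℚ)) 3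

/-- leaf (P5), helper81: at `p = 5`, if the image of `ρ̄` contains no transvection then `habs` and
`hTW` hold directly (prime-to-`5` image, Minkowski + tame cyclicity + Maschke). -/
def PrimeToFiveStmt [Fact (Nat.Prime 5)] : Prop :=
  ∀ (W : WeierstrassCurve ℤ), W.Δ ≠ 0 → W.IsSemistableModel → W.ModRepIsIrreducible 5 →
    ¬ HasTransvectionModP (W.map (Int.castRingHom ℚ)) 5 →
    ∀ (hcard₁ : Nat.card (Submodule.torsionBy ℤ
        ((W.map (Int.castRingHom ℚ))⁄(AlgebraicClosure ℚ)).Point 5) = 5 ^ 2)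
      (hker : GaloisFactorsThroughFiniteLevel
        (galoisRepModuleEnd (K := AlgebraicClosure ℚ) ℚ (W.map (Int.castRingHom ℚ)) 5))
      (k : Type) [Field k] [Algebra (ZMod 5) k],
      ((rb 5 W hcard₁ hker).baseChange k).IsAbsolutelyIrreducible ∧
        IsTWHyp ((rb 5 W hcard₁ hker).baseChange k)

/-- leaf (THREE), helper82: `hTW` + `det ∈ {±1}` + some `det = −1` ⟹ an element with `det = −1`
and nonzero trace. -/
def ThreeStmt : Prop :=
  ∀ (k : Type) [Field k] (ρ : ResidualGaloisRep k), (2 : k) ≠ 0 → IsTWHyp ρ →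
    (∃ σ₁ : GQ, LinearMap.det (ρ.ρ σ₁) = -1) →
    (∀ σ : GQ, LinearMap.det (ρ.ρ σ) = 1 ∨ LinearMap.det (ρ.ρ σ) = -1) →
    ∃ σ : GQ, LinearMap.det (ρ.ρ σ) = -1 ∧ LinearMap.trace k ρ.V (ρ.ρ σ) ≠ 0

end Fermat.Agent.GE8.Irr2
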