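/-
GATE-E / E8.6 IRR2 (helper43, owner): **assembly** `Irr2Stmt 3`, `Irr2Stmt 5` from the three leaves
of `Stmt.lean` (`PThreeStmt` helper21, `PrimeToFiveStmt` helper81, `ThreeStmt` helper82).

* branch T (`HasTransvectionModP`): `habs` = `RhoBar.isAbsolutelyIrreducible_baseChange`,
  `hTW` = `TWHyp.isTWHyp_of_hasTransvection` — on main since GATE-B;
* `p = 3`: `PThreeStmt` puts us in branch T; the `σ` of E8.3 comes from `ThreeStmt` applied to
  `ρ̄` itself with `det ρ̄ = χ₃ ∈ {±1}` and `det ρ̄(c) = −1` (`GB/A/A6/ECDet`, no Weil pairing);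
* `p = 5`: branch T or `PrimeToFiveStmt`.
-/
import Fermat.Agent.GE8.Irr2.Stmt
import Fermat.Agent.GB.A.A6.ECDet

set_option autoImplicit false

open WeierstrassCurve WeierstrassCurve.Affine.Point
open scoped WeierstrassCurve.Affine

namespace Fermat.Agent.GE8.Irr2

open Fermat.Agent.GB.Setup.RhoBar Fermat.Agent.GB.Def.TWHyp
open Fermat.Agent.GB.Top.FreyTwo.Transvection

/-- `G_ℚ`. -/
local notation "GQ" => (AlgebraicClosure ℚ ≃ₐ[ℚ] AlgebraicClosure ℚ)

section BranchT

variable {p : ℕ} [Fact p.Prime] {W : WeierstrassCurve ℤ}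
  (hcard₁ : Nat.card (Submodule.torsionBy ℤ
    ((W.map (Int.castRingHom ℚ))⁄(AlgebraicClosure ℚ)).Point p) = p ^ 2)
  (hker : GaloisFactorsThroughFiniteLevel
    (galoisRepModuleEnd (K := AlgebraicClosure ℚ) ℚ (W.map (Int.castRingHom ℚ)) p))

/-- `2 ≠ 0` in every field of odd characteristic `p`. -/
theorem two_ne_zero_of_algebra (hp2 : p ≠ 2) (k : Type) [Field k] [Algebra (ZMod p) k] :
    (2 : k) ≠ 0 := by
  intro h
  have h2 : ((2 : ℕ) : ZMod p) = 0 := by
    apply (algebraMap (ZMod p) k).injective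
    rw [map_natCast, _root_.map_zero]
    exact_mod_cast h
  rw [ZMod.natCast_eq_zero_iff] at h2
  exact hp2 ((Nat.prime_dvd_prime_iff_eq (Fact.out : p.Prime) Nat.prime_two).1 h2)

/-- **branch T**: a transvection in the image gives `habs ∧ hTW` for every coefficient field. -/
theorem habs_hTW_of_transvection (hp2 : p ≠ 2) (hirr : W.ModRepIsIrreducible p)
    (htrans : HasTransvectionModP (W.map (Int.castRingHom ℚ)) p)
    (k : Type) [Field k] [Algebra (ZMod p) k] :
    ((rb p W hcard₁ hker).baseChange k).IsAbsolutelyIrreducible ∧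
      IsTWHyp ((rb p W hcard₁ hker).baseChange k) := by
  have habs := isAbsolutelyIrreducible_baseChange hcard₁ hker hirr htrans k
  exact ⟨habs, isTWHyp_of_hasTransvection (two_ne_zero_of_algebra hp2 k) _ habs
    (hasTransvection_baseChange hcard₁ hker htrans k)⟩

/-- **branch T** for `ρ̄` itself (no base change). -/
theorem isTWHyp_rb_of_transvection (hp2 : p ≠ 2) (hirr : W.ModRepIsIrreducible p)
    (htrans : HasTransvectionModP (W.map (Int.castRingHom ℚ)) p) :
    IsTWHyp (rb p W hcard₁ hker) := by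
  have h2 : (2 : ZMod p) ≠ 0 := two_ne_zero_of_algebra hp2 (ZMod p)
  have habs : (rb p W hcard₁ hker).IsAbsolutelyIrreducible :=
    Fermat.Agent.GB.Setup.Irr.isAbsolutelyIrreducible_of_transvection (rb p W hcard₁ hker)
      (isIrreducible_rb hcard₁ hker hirr) htrans
  exact isTWHyp_of_hasTransvection h2 _ habs htrans

/-- `det ρ̄ = χ_p` in the `rb` vocabulary (`GB/A/A6/ECDet.det_rho`). -/
theorem det_rb (hΔ : W.Δ ≠ 0) (hirr : W.ModRepIsIrreducible p) (σ : GQ) :
    LinearMap.det ((rb p W hcard₁ hker).ρ σ) =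
      ((Fermat.Agent.GJ.CycChar.cyc p σ : (ZMod p)ˣ) : ZMod p) :=
  Fermat.Agent.GB.A.A6.ECDet.det_rho hΔ hcard₁ hirr σ

/-- `det ρ̄(c) = −1`. -/
theorem det_rb_conj (hΔ : W.Δ ≠ 0) (hirr : W.ModRepIsIrreducible p) :
    LinearMap.det ((rb p W hcard₁ hker).ρ complexConjugation) = -1 := by
  rw [det_rb hcard₁ hker hΔ hirr, Fermat.Agent.GB.A.A6.ECDet.cyc_conj]

end BranchT

/-- a unit of `ZMod 3` is `1` or `−1`. -/
theorem zmod_three_unit (u : (ZMod 3)ˣ) : (u : ZMod 3) = 1 ∨ (u : ZMod 3) = -1 := by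
  have h0 : (u : ZMod 3) ≠ 0 := u.ne_zero
  generalize (u : ZMod 3) = x at h0
  revert x
  decide

/-- **E8.6 IRR2 at `p = 3`** from the leaves (P3) and (THREE). -/
theorem irr2Stmt_three [Fact (Nat.Prime 3)] (h3 : PThreeStmt) (hT : ThreeStmt) : Irr2Stmt 3 := by
  intro W hΔ hss hirr hcard₁ hker
  have htrans : HasTransvectionModP (W.map (Int.castRingHom ℚ)) 3 := h3 W hΔ hss hirr
  refine ⟨fun k _ _ => habs_hTW_of_transvection hcard₁ hker (by decide) hirr htrans k, fun _ => ?_⟩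
  refine hT (ZMod 3) (rb 3 W hcard₁ hker) (two_ne_zero_of_algebra (p := 3) (by decide) (ZMod 3))
    (isTWHyp_rb_of_transvection hcard₁ hker (by decide) hirr htrans)
    ⟨complexConjugation, det_rb_conj hcard₁ hker hΔ hirr⟩ fun σ => ?_
  rw [det_rb hcard₁ hker hΔ hirr]
  exact zmod_three_unit _

/-- **E8.6 IRR2 at `p = 5`** from the leaf (P5). -/
theorem irr2Stmt_five [Fact (Nat.Prime 5)] (h5 : PrimeToFiveStmt) : Irr2Stmt 5 := by
  intro W hΔ hss hirr hcard₁ hker
  refine ⟨fun k _ _ => ?_, fun h => absurd h (by decide)⟩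
  by_cases htrans : HasTransvectionModP (W.map (Int.castRingHom ℚ)) 5
  · exact habs_hTW_of_transvection hcard₁ hker (by decide) hirr htrans k
  · exact h5 W hΔ hss hirr htrans hcard₁ hker k

end Fermat.Agent.GE8.Irr2
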