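/-
GATE-E / E8.6 IRR2 (helper43, owner): **`Irr2Stmt 3` binder-free.**

`irr2_three = Main.irr2Stmt_three (PThree.hasTransvectionModP_three) (Three.exists_det_neg_one_trace_ne_zero)`:
for `W/ℤ` semistable, `Δ ≠ 0`, `W[3]` irreducible, `ρ̄ := RhoBar.rb 3 W hcard₁ hker`, every `k ⊇ 𝔽₃`:
`habs` and `hTW` (frozen S56 binders) for `ρ̄ ⊗ k`, and `∃ σ, det ρ̄(σ) = −1 ∧ tr ρ̄(σ) ≠ 0`.
-/
import Fermat.Agent.GE8.Irr2.Main
import Fermat.Agent.GE8.Irr2.PThree
import Fermat.Agent.GE8.Irr2.Three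

set_option autoImplicit false

namespace Fermat.Agent.GE8.Irr2

/-- leaf (P3) discharged (helper21). -/
theorem pThreeStmt : PThreeStmt := fun W hΔ hss hirr =>
  PThree.hasTransvectionModP_three W hΔ hss hirr

/-- leaf (THREE) discharged (helper82). -/
theorem threeStmt : ThreeStmt := fun _ _ ρ h2 hTW hex hdet =>
  Three.exists_det_neg_one_trace_ne_zero h2 ρ hTW hex hdet

/-- **E8.6 IRR2 at `p = 3`, binder-free.** -/
theorem irr2_three [Fact (Nat.Prime 3)] : Irr2Stmt 3 :=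
  irr2Stmt_three pThreeStmt threeStmt

end Fermat.Agent.GE8.Irr2
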