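/-
GATE-E / E8.6 IRR2 (helper43, owner): **`Irr2Stmt 5` binder-free** = the Galois plug of helper81's
abstract core `PrimeToP/GroupCore.not_comm_of_index_two` + `Diag` + `Main.irr2Stmt_five`.

`W/ℤ` semistable, `Δ ≠ 0`, `W[5]` irreducible, no transvection in the image of `ρ̄ = W[5]`
(so: `ρ̄` unramified outside `5`, no element of order `5`, helper90 `Transv`).  With
`G := G_ℚ`, `I := I_A` (`A ∣ 5`), `c :=` complex conjugation, the binders of the core are:
* `hgen`  (Minkowski)            : helper21 `MinkA.eq_top_of_ker_le_of_inertia_le`;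
* `hcyc`  (tame `2`-quotients)   : `GP/Loc/TamePQuot.isCyclic_map_inertia_of_isPGroup`;
* `hc`, `hcdet` (oddness)        : helper90 `HabsW.det_rb_complexConjugation`;
* `hdet`  (`det` takes the value `2`) : `det ρ̄ = χ₅` and a Frobenius element at `2`.
Then every subgroup of index `≤ 2` has non-commutative image, and `Diag` turns this into the frozen
S56 binders `habs`, `hTW` for every `ρ̄ ⊗ k`.  (The `S₄`-image case is not excluded, and need not be.)
-/
import Fermat.Agent.GE8.Irr2.Main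
import Fermat.Agent.GE8.Irr2.Transv
import Fermat.Agent.GE8.Irr2.HabsW
import Fermat.Agent.GE8.Irr2.MinkA
import Fermat.Agent.GE8.Irr2.Diag
import Fermat.Agent.GE8.Irr2.PrimeToP.GroupCore
import Fermat.Agent.GP.Loc.TamePQuot

set_option autoImplicit false

open WeierstrassCurve WeierstrassCurve.Affine.Point
open scoped WeierstrassCurve.Affine

namespace Fermat.Agent.GE8.Irr2

open Fermat.Agent.GB.Setup.RhoBar Fermat.Agent.GB.Def.TWHyp
open Fermat.Agent.GB.Top.FreyTwo.Transvection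
open Fermat.Agent.Common_helper32

local notation "GQ'" => (AlgebraicClosure ℚ ≃ₐ[ℚ] AlgebraicClosure ℚ)

/-- leaf (P5) discharged: helper81's core + helper21's Minkowski + the tame `2`-quotient. -/
theorem primeToFiveStmt [Fact (Nat.Prime 5)] : PrimeToFiveStmt := by
  intro W hΔ hss hirr hno hcard₁ hker k _ _
  obtain ⟨-, hunr, hfree, -, -⟩ :=
    Fermat.Agent.GE8.Irr2.Transv.unramified_and_not_dvd_of_not_hasTransvection W hss hΔ
      Nat.prime_five hno
  obtain ⟨A, hA⟩ := exists_liesOverPrime 5 Nat.prime_five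
  -- abbreviations
  have hρdef : (rb 5 W hcard₁ hker).ρ =
      galoisRepModuleEnd (K := AlgebraicClosure ℚ) ℚ (W.map (Int.castRingHom ℚ)) 5 := rfl
  have hmf : Module.Finite (ZMod 5) (rb 5 W hcard₁ hker).V :=
    Module.finite_of_finrank_pos (by rw [(rb 5 W hcard₁ hker).finrank_eq]; norm_num)
  -- the level of `ρ.toHomUnits`
  obtain ⟨L, hLfd, hL⟩ := id hker
  have hgen : ∀ U : Subgroup GQ', U.Normal → (rb 5 W hcard₁ hker).ρ.ker ≤ U →
      A.inertiaSubgroupIn ℚ ≤ U → U = ⊤ := by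
    intro U hn hk hI
    refine Fermat.Agent.GE8.Irr2.MinkA.eq_top_of_ker_le_of_inertia_le
      (rb 5 W hcard₁ hker).ρ.toHomUnits ⟨L, hLfd, fun σ hσ => Units.ext (hL σ hσ)⟩ A hA ?_ U hn
      ?_ hI
    · intro l hl hlp
      obtain ⟨A', hA'⟩ := exists_liesOverPrime l hl
      exact ⟨A', hA', fun σ hσ => Units.ext (hunr l hl hlp A' hA' σ hσ)⟩
    · intro σ hσ
      apply hk
      rw [MonoidHom.mem_ker] at hσ ⊢
      have := congrArg Units.val hσ
      simpa using this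
  have hcyc : ∀ (H : Type) [Group H] [Finite H] (f : GQ' →* H),
      (rb 5 W hcard₁ hker).ρ.ker ≤ f.ker → IsPGroup 2 H →
      IsCyclic ↥((A.inertiaSubgroupIn ℚ).map f) := by
    intro H _ _ f hk h2
    have : Fact (Nat.Prime 2) := ⟨Nat.prime_two⟩
    refine Fermat.Agent.GP.Loc.TamePQuot.isCyclic_map_inertia_of_isPGroup A Nat.prime_five hA f
      ⟨L, hLfd, fun σ hσ => ?_⟩ 2 (by norm_num) (h2.to_subgroup _)
    have : σ ∈ f.ker := hk (MonoidHom.mem_ker.2 (hL σ hσ))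
    exact MonoidHom.mem_ker.1 this
  have hc : (rb 5 W hcard₁ hker).ρ complexConjugation *
      (rb 5 W hcard₁ hker).ρ complexConjugation = 1 := by
    rw [← map_mul, complexConjugation_mul_self, map_one]
  have hcdet := Fermat.Agent.GE8.Irr2.HabsW.det_rb_complexConjugation hcard₁ hker hΔ hirr
  have hdet : ∃ g, LinearMap.det ((rb 5 W hcard₁ hker).ρ g) = 2 := by
    obtain ⟨A2, hA2⟩ := exists_liesOverPrime 2 Nat.prime_two
    obtain ⟨τ, hτ⟩ := exists_isFrobeniusAt_of_liesOver A2 2 Nat.prime_two hA2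
    refine ⟨τ, ?_⟩
    rw [Fermat.Agent.GE8.Irr2.HabsW.det_rb hcard₁ hker hΔ hirr,
      Fermat.Agent.GJ.CycChar.cyc_frob Nat.prime_two (by norm_num) hA2 hτ]
    norm_num
  have hirr' : ∀ L' : Submodule (ZMod 5) (rb 5 W hcard₁ hker).V,
      (∀ g, ∀ x ∈ L', (rb 5 W hcard₁ hker).ρ g x ∈ L') → L' = ⊥ ∨ L' = ⊤ :=
    isIrreducible_rb hcard₁ hker hirr
  have hnc : ∀ G' : Subgroup GQ', G'.index = 2 ∨ G' = ⊤ →
      ∃ g₁ ∈ G', ∃ g₂ ∈ G', (rb 5 W hcard₁ hker).ρ g₁ * (rb 5 W hcard₁ hker).ρ g₂ ≠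
        (rb 5 W hcard₁ hker).ρ g₂ * (rb 5 W hcard₁ hker).ρ g₁ := by
    intro G' hG'
    have h := Fermat.Agent.GE8.Irr2.PrimeToP.not_comm_of_index_two (rb 5 W hcard₁ hker).ρ
      (A.inertiaSubgroupIn ℚ) complexConjugation (rb 5 W hcard₁ hker).finrank_eq hirr' hgen hcyc
      hc hcdet hdet G' hG'
    push Not at h
    exact h
  have hp0 : (((5 : ℕ) : ℕ) : k) = 0 := natCast_p_eq_zero (p := 5) k
  refine ⟨?_, ?_⟩
  · obtain ⟨g₁, -, g₂, -, hne⟩ := hnc ⊤ (Or.inr rfl)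
    exact Diag.isAbsolutelyIrreducible_of_noncomm hp0 _
      (Diag.hfree_baseChange (rb 5 W hcard₁ hker) hfree k)
      ⟨g₁, g₂, Diag.noncomm_baseChange (rb 5 W hcard₁ hker) k hne⟩
  · refine Diag.isTWHyp_of_noncomm hp0 _ (Diag.hfree_baseChange (rb 5 W hcard₁ hker) hfree k)
      fun G hG => ?_
    obtain ⟨g₁, h₁, g₂, h₂, hne⟩ := hnc G (Or.inl hG)
    exact ⟨g₁, h₁, g₂, h₂, Diag.noncomm_baseChange (rb 5 W hcard₁ hker) k hne⟩

/-- **E8.6 IRR2 at `p = 5`, binder-free.** -/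
theorem irr2_five [Fact (Nat.Prime 5)] : Irr2Stmt 5 :=
  irr2Stmt_five primeToFiveStmt

end Fermat.Agent.GE8.Irr2
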