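/-
GATE-E (S59 pre-work) / E8.6 IRR2, prime-to-`p` image case, plug side (helper21):
**`IsTWHyp` from non-commutativity** — step (D) of helper81's route, WITHOUT Maschke and without any
finiteness.

`ρ : ResidualGaloisRep k₀` whose image contains no transvection.  If for every index-two subgroup
`G ≤ G_ℚ` the group `ρ(G)` is NOT commutative, then for every field `k ⊇ k₀` the base change
`ρ.baseChange k` satisfies `GB.Def.TWHyp.IsTWHyp` (= the `hTW` binder of the frozen S56): no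
`G`-stable line over any `K ⊇ k`.

Proof.  A `G`-stable line `V` in the plane `K ⊗ (k ⊗ ρ.V)`: every commutator
`c = σ τ σ⁻¹ τ⁻¹`, `σ τ ∈ G`, fixes `V` pointwise (scalars commute) and has determinant `1`, hence
(Cayley–Hamilton in rank two) `(ρ_K(c) - 1) ^ 2 = 0`.  The double base change
`End_{k₀}(ρ.V) → End_K(K ⊗ (k ⊗ ρ.V))` is an injective ring homomorphism, so `(ρ(c) - 1) ^ 2 = 0`;
no transvection ⟹ `ρ(c) = 1`, i.e. `ρ(σ)` and `ρ(τ)` commute.

* `exists_smul_of_stable`, `commutator_apply_of_stable`, `sub_one_sq_eq_zero_of_fixed` : linear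
  algebra (Mathlib only);
* `sub_one_sq_eq_zero_of_stable` : the commutator statement for `ρ`, any subgroup `G`, any tower
  `k₀ → k → K`;
* `commute_of_stable` : no transvection ⟹ `ρ(G)` commutative as soon as `G` has a stable line
  over some `K`;
* **`isTWHyp_baseChange_of_noncomm`**; `isIrreducible_baseChange_of_noncomm` (same with `G = ⊤`).
-/
import Mathlib
import Fermat.Prelude.Def_GaloisRep_Residual
import Fermat.Agent.GB.Def.TWHyp

set_option autoImplicit false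
set_option linter.unusedSectionVars false
set_option linter.unusedVariables false

open scoped TensorProduct
open Module Polynomial

namespace Fermat.Agent.GE8.Irr2.TWComm

/-- `ℚ̄`. -/
local notation "Qb" => AlgebraicClosure ℚ

/-! ### linear algebra -/

section LinAlg

variable {K : Type*} [Field K] {P : Type*} [AddCommGroup P] [Module K P]

/-- an endomorphism preserving a line acts on it by a scalar. -/
theorem exists_smul_of_stable (V : Submodule K P) (hV : finrank K V = 1) (x : Module.End K P)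
    (hx : ∀ u ∈ V, x u ∈ V) : ∃ α : K, ∀ u ∈ V, x u = α • u := by
  obtain ⟨v, hv0, hv⟩ := finrank_eq_one_iff'.mp hV
  obtain ⟨α, hα⟩ := hv ⟨x v, hx v v.2⟩
  have hα' : α • (v : P) = x v := congrArg Subtype.val hα
  refine ⟨α, fun u hu => ?_⟩
  obtain ⟨c, hc⟩ := hv ⟨u, hu⟩
  have hc' : c • (v : P) = u := congrArg Subtype.val hc
  rw [← hc', map_smul, ← hα', smul_comm]

/-- a commutator of invertible endomorphisms preserving a line fixes it pointwise. -/
theorem commutator_apply_of_stable (V : Submodule K P) (hV : finrank K V = 1)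
    (a a' b b' : Module.End K P) (haa' : a * a' = 1) (hbb' : b * b' = 1)
    (ha : ∀ u ∈ V, a u ∈ V) (ha' : ∀ u ∈ V, a' u ∈ V)
    (hb : ∀ u ∈ V, b u ∈ V) (hb' : ∀ u ∈ V, b' u ∈ V) :
    ∀ u ∈ V, (a * b * a' * b') u = u := by
  obtain ⟨α, hα⟩ := exists_smul_of_stable V hV a ha
  obtain ⟨α', hα'⟩ := exists_smul_of_stable V hV a' ha'
  obtain ⟨β, hβ⟩ := exists_smul_of_stable V hV b hb
  obtain ⟨β', hβ'⟩ := exists_smul_of_stable V hV b' hb'
  obtain ⟨v, hv0, hv⟩ := finrank_eq_one_iff'.mp hV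
  have hv0' : (v : P) ≠ 0 := fun h => hv0 (Subtype.ext h)
  have h1 : α * α' = 1 := by
    have e : (a * a') (v : P) = (α * α') • (v : P) := by
      rw [Module.End.mul_apply, hα' v v.2, map_smul, hα v v.2, smul_smul, mul_comm]
    rw [haa', Module.End.one_apply] at e
    have e2 : ((α * α') - 1) • (v : P) = 0 := by rw [sub_smul, one_smul, ← e, sub_self]
    rcases smul_eq_zero.mp e2 with h | h
    · exact sub_eq_zero.mp h
    · exact absurd h hv0'
  have h2 : β * β' = 1 := by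
    have e : (b * b') (v : P) = (β * β') • (v : P) := by
      rw [Module.End.mul_apply, hβ' v v.2, map_smul, hβ v v.2, smul_smul, mul_comm]
    rw [hbb', Module.End.one_apply] at e
    have e2 : ((β * β') - 1) • (v : P) = 0 := by rw [sub_smul, one_smul, ← e, sub_self]
    rcases smul_eq_zero.mp e2 with h | h
    · exact sub_eq_zero.mp h
    · exact absurd h hv0'
  intro u hu
  have e : (a * b * a' * b') u = (β' * (α' * (β * α))) • u := by
    have s1 : b' u = β' • u := hβ' u hu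
    have s2 : a' (β' • u) = β' • (α' • u) := by rw [map_smul, hα' u hu]
    have s3 : b (β' • (α' • u)) = β' • (α' • (β • u)) := by
      rw [map_smul, map_smul, hβ u hu]
    have s4 : a (β' • (α' • (β • u))) = β' • (α' • (β • (α • u))) := by
      rw [map_smul, map_smul, map_smul, hα u hu]
    rw [Module.End.mul_apply, Module.End.mul_apply, Module.End.mul_apply, s1, s2, s3, s4,
      smul_smul, smul_smul, smul_smul]
    congr 1
    ring
  rw [e]
  have : β' * (α' * (β * α)) = (α * α') * (β * β') := by ring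
  rw [this, h1, h2, one_mul, one_smul]

/-- rank two, `det c = 1`, a fixed nonzero vector ⟹ `(c - 1) ^ 2 = 0`. -/
theorem sub_one_sq_eq_zero_of_fixed (hP : finrank K P = 2) (c : Module.End K P)
    (hdet : LinearMap.det c = 1) (v : P) (hv0 : v ≠ 0) (hv : c v = v) : (c - 1) ^ 2 = 0 := by
  have : Module.Finite K P := Module.finite_of_finrank_eq_succ hP
  have hcp : c.charpoly = X ^ 2 - C (LinearMap.trace K P c) * X + C (LinearMap.det c) := by
    classical
    have hcard : Fintype.card (Free.ChooseBasisIndex K P) = 2 := by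
      rw [← finrank_eq_card_chooseBasisIndex, hP]
    let b : Basis (Fin 2) K P :=
      (Free.chooseBasis K P).reindex (Fintype.equivFinOfCardEq hcard)
    rw [← LinearMap.charpoly_toMatrix c b, Matrix.charpoly_fin_two,
      ← LinearMap.trace_eq_matrix_trace K b c, LinearMap.det_toMatrix b c]
  have hch := LinearMap.aeval_self_charpoly c
  rw [hcp, hdet, map_one] at hch
  simp only [map_add, map_sub, map_mul, map_pow, aeval_X, aeval_C, map_one] at hch
  -- `c ^ 2 - t c + 1 = 0`; apply to `v`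
  set t := LinearMap.trace K P c with ht
  have hv2 : (c ^ 2) v = v := by rw [pow_two, Module.End.mul_apply, hv, hv]
  have h1 := LinearMap.congr_fun hch v
  rw [LinearMap.add_apply, LinearMap.sub_apply, hv2, Module.End.mul_apply, hv,
    Module.algebraMap_end_apply, Module.End.one_apply, LinearMap.zero_apply] at h1
  have h2 : ((2 : K) - t) • v = 0 := by
    rw [sub_smul, two_smul]
    rw [← h1]
    abel
  have ht2 : t = 2 := by
    rcases smul_eq_zero.mp h2 with h | h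
    · exact (sub_eq_zero.mp h).symm
    · exact absurd h hv0
  rw [ht2] at hch
  have e : (c - 1) ^ 2 = c ^ 2 - (algebraMap K (Module.End K P)) 2 * c + 1 := by
    rw [map_ofNat]
    noncomm_ring
  rw [e]
  exact hch

end LinAlg

/-! ### residual representations -/

section Rep

variable {k₀ : Type} [Field k₀] (ρ : ResidualGaloisRep k₀)

/-- the double base change of endomorphisms is injective and multiplicative; on `ρ` it is
`(ρ.baseChange k).baseChange K`. -/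
theorem baseChange_baseChange_injective (k : Type) [Field k] [Algebra k₀ k]
    (K : Type) [Field K] [Algebra k K] (x : Module.End k₀ ρ.V)
    (h : (x.baseChange k).baseChange K = 0) : x = 0 := by
  have h1 : Function.Injective (Module.End.baseChangeHom k₀ k ρ.V) :=
    LinearMap.baseChangeHom_injective k₀ ρ.V k
  have h2 : Function.Injective (Module.End.baseChangeHom k K (k ⊗[k₀] ρ.V)) :=
    LinearMap.baseChangeHom_injective k (k ⊗[k₀] ρ.V) K
  have e : Module.End.baseChangeHom k K (k ⊗[k₀] ρ.V) (Module.End.baseChangeHom k₀ k ρ.V x) = 0 := h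
  have e1 := h2 (e.trans (map_zero _).symm)
  exact h1 (e1.trans (map_zero _).symm)

/-- commutators of elements stabilising a line are unipotent. -/
theorem sub_one_sq_eq_zero_of_stable_aux {K : Type} [Field K] (ρK : ResidualGaloisRep K)
    (G : Subgroup (Qb ≃ₐ[ℚ] Qb))
    (V : Submodule K ρK.V) (hV0 : V ≠ ⊥) (hV1 : V ≠ ⊤)
    (hV : ∀ σ ∈ G, ∀ x ∈ V, ρK.ρ σ x ∈ V)
    {σ τ : Qb ≃ₐ[ℚ] Qb} (hσ : σ ∈ G) (hτ : τ ∈ G) :
    (ρK.ρ (σ * τ * σ⁻¹ * τ⁻¹) - 1) ^ 2 = 0 := by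
  have hfin : finrank K ρK.V = 2 := ρK.finrank_eq
  have hlt := Submodule.finrank_lt hV1
  have hne : finrank K V ≠ 0 := by
    rw [Ne, Submodule.finrank_eq_zero]
    exact hV0
  have hV1' : finrank K V = 1 := by omega
  obtain ⟨v, hv0, -⟩ := finrank_eq_one_iff'.mp hV1'
  have hv0' : (v : ρK.V) ≠ 0 := fun h => hv0 (Subtype.ext h)
  have hmul : ∀ g : Qb ≃ₐ[ℚ] Qb, ρK.ρ g * ρK.ρ g⁻¹ = 1 := fun g => by
    rw [← map_mul, mul_inv_cancel, map_one]
  have hfix := commutator_apply_of_stable V hV1' (ρK.ρ σ) (ρK.ρ σ⁻¹) (ρK.ρ τ) (ρK.ρ τ⁻¹)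
    (hmul σ) (hmul τ) (hV σ hσ) (hV σ⁻¹ (G.inv_mem hσ)) (hV τ hτ) (hV τ⁻¹ (G.inv_mem hτ))
  have hc : ρK.ρ (σ * τ * σ⁻¹ * τ⁻¹) = ρK.ρ σ * ρK.ρ τ * ρK.ρ σ⁻¹ * ρK.ρ τ⁻¹ := by
    rw [map_mul, map_mul, map_mul]
  have hdet : LinearMap.det (ρK.ρ (σ * τ * σ⁻¹ * τ⁻¹)) = 1 := by
    rw [hc, map_mul, map_mul, map_mul]
    have h1 : LinearMap.det (ρK.ρ σ) * LinearMap.det (ρK.ρ σ⁻¹) = 1 := by
      rw [← map_mul, hmul σ, map_one]
    have h2 : LinearMap.det (ρK.ρ τ) * LinearMap.det (ρK.ρ τ⁻¹) = 1 := by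
      rw [← map_mul, hmul τ, map_one]
    calc LinearMap.det (ρK.ρ σ) * LinearMap.det (ρK.ρ τ) * LinearMap.det (ρK.ρ σ⁻¹) *
          LinearMap.det (ρK.ρ τ⁻¹)
        = (LinearMap.det (ρK.ρ σ) * LinearMap.det (ρK.ρ σ⁻¹)) *
          (LinearMap.det (ρK.ρ τ) * LinearMap.det (ρK.ρ τ⁻¹)) := by ring
      _ = 1 := by rw [h1, h2, one_mul]
  exact sub_one_sq_eq_zero_of_fixed hfin (ρK.ρ (σ * τ * σ⁻¹ * τ⁻¹)) hdet (v : ρK.V) hv0'
    (by rw [hc]; exact hfix v v.2)

/-- **commutators of elements stabilising a line over `K` are unipotent over `k₀`.** -/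
theorem sub_one_sq_eq_zero_of_stable (k : Type) [Field k] [Algebra k₀ k]
    (K : Type) [Field K] [Algebra k K] (G : Subgroup (Qb ≃ₐ[ℚ] Qb))
    (V : Submodule K ((ρ.baseChange k).baseChange K).V) (hV0 : V ≠ ⊥) (hV1 : V ≠ ⊤)
    (hV : ∀ σ ∈ G, ∀ x ∈ V, ((ρ.baseChange k).baseChange K).ρ σ x ∈ V)
    {σ τ : Qb ≃ₐ[ℚ] Qb} (hσ : σ ∈ G) (hτ : τ ∈ G) :
    (ρ.ρ (σ * τ * σ⁻¹ * τ⁻¹) - 1) ^ 2 = 0 := by
  have hsq := sub_one_sq_eq_zero_of_stable_aux ((ρ.baseChange k).baseChange K) G V hV0 hV1 hV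
    hσ hτ
  -- transport to `k₀`
  apply baseChange_baseChange_injective ρ k K
  have e : (((ρ.ρ (σ * τ * σ⁻¹ * τ⁻¹) - 1) ^ 2).baseChange k).baseChange K =
      (((ρ.baseChange k).baseChange K).ρ (σ * τ * σ⁻¹ * τ⁻¹) - 1) ^ 2 := by
    have e1 : ∀ y : Module.End k₀ ρ.V, (y.baseChange k).baseChange K =
        Module.End.baseChangeHom k K (k ⊗[k₀] ρ.V) (Module.End.baseChangeHom k₀ k ρ.V y) :=
      fun y => rfl
    rw [e1, map_pow, map_pow, map_sub, map_sub, map_one, map_one]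
    rfl
  rw [e]
  exact hsq

/-- no transvection + a `G`-stable line over some `K` ⟹ `ρ(G)` is commutative. -/
theorem commute_of_stable
    (hno : ¬ ∃ σ : Qb ≃ₐ[ℚ] Qb, ρ.ρ σ ≠ 1 ∧ (ρ.ρ σ - 1) ^ 2 = 0)
    (k : Type) [Field k] [Algebra k₀ k]
    (K : Type) [Field K] [Algebra k K] (G : Subgroup (Qb ≃ₐ[ℚ] Qb))
    (V : Submodule K ((ρ.baseChange k).baseChange K).V) (hV0 : V ≠ ⊥) (hV1 : V ≠ ⊤)
    (hV : ∀ σ ∈ G, ∀ x ∈ V, ((ρ.baseChange k).baseChange K).ρ σ x ∈ V)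
    {σ τ : Qb ≃ₐ[ℚ] Qb} (hσ : σ ∈ G) (hτ : τ ∈ G) :
    ρ.ρ σ * ρ.ρ τ = ρ.ρ τ * ρ.ρ σ := by
  have hsq := sub_one_sq_eq_zero_of_stable ρ k K G V hV0 hV1 hV hσ hτ
  have hc1 : ρ.ρ (σ * τ * σ⁻¹ * τ⁻¹) = 1 := by
    by_contra h
    exact hno ⟨_, h, hsq⟩
  have e : σ * τ = (σ * τ * σ⁻¹ * τ⁻¹) * (τ * σ) := by group
  rw [← map_mul, ← map_mul, e, map_mul, hc1, one_mul]

/-- **`IsTWHyp` from non-commutativity.** -/
theorem isTWHyp_baseChange_of_noncomm
    (hno : ¬ ∃ σ : Qb ≃ₐ[ℚ] Qb, ρ.ρ σ ≠ 1 ∧ (ρ.ρ σ - 1) ^ 2 = 0)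
    (hnc : ∀ G : Subgroup (Qb ≃ₐ[ℚ] Qb), G.index = 2 →
      ∃ σ ∈ G, ∃ τ ∈ G, ρ.ρ σ * ρ.ρ τ ≠ ρ.ρ τ * ρ.ρ σ)
    (k : Type) [Field k] [Algebra k₀ k] :
    Fermat.Agent.GB.Def.TWHyp.IsTWHyp (ρ.baseChange k) := by
  intro K _ _ G hG V hV
  by_contra hcon
  obtain ⟨hV0, hV1⟩ := not_or.mp hcon
  obtain ⟨σ, hσ, τ, hτ, hne⟩ := hnc G hG
  exact hne (commute_of_stable ρ hno k K G V hV0 hV1 hV hσ hτ)

/-- the same for the whole group: `ρ.baseChange k` stays irreducible over every `K`. -/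
theorem isIrreducible_baseChange_of_noncomm
    (hno : ¬ ∃ σ : Qb ≃ₐ[ℚ] Qb, ρ.ρ σ ≠ 1 ∧ (ρ.ρ σ - 1) ^ 2 = 0)
    (hnc : ∃ σ τ : Qb ≃ₐ[ℚ] Qb, ρ.ρ σ * ρ.ρ τ ≠ ρ.ρ τ * ρ.ρ σ)
    (k : Type) [Field k] [Algebra k₀ k] (K : Type) [Field K] [Algebra k K] :
    ((ρ.baseChange k).baseChange K).IsIrreducible := by
  intro V hV
  by_contra hcon
  obtain ⟨hV0, hV1⟩ := not_or.mp hcon
  obtain ⟨σ, τ, hne⟩ := hnc
  exact hne (commute_of_stable ρ hno k K ⊤ V hV0 hV1 (fun g _ => hV g)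
    (Subgroup.mem_top σ) (Subgroup.mem_top τ))

/-- in particular `ρ.baseChange k` is absolutely irreducible. -/
theorem isAbsolutelyIrreducible_baseChange_of_noncomm
    (hno : ¬ ∃ σ : Qb ≃ₐ[ℚ] Qb, ρ.ρ σ ≠ 1 ∧ (ρ.ρ σ - 1) ^ 2 = 0)
    (hnc : ∃ σ τ : Qb ≃ₐ[ℚ] Qb, ρ.ρ σ * ρ.ρ τ ≠ ρ.ρ τ * ρ.ρ σ)
    (k : Type) [Field k] [Algebra k₀ k] :
    (ρ.baseChange k).IsAbsolutelyIrreducible :=
  isIrreducible_baseChange_of_noncomm ρ hno hnc k (AlgebraicClosure k)

end Rep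

end Fermat.Agent.GE8.Irr2.TWComm
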