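/-
GATE-E (S59 pre-work) / E8.6 IRR2 at `p = 5`, the prime-to-`5` image case: the Galois plug
(helper21, hedge of helper81's `PrimeToP/Plug.lean`, written on a warm box).

**`primeToFiveStmt : PrimeToFiveStmt`** (helper43's `Stmt.lean`, verbatim): `W / ℤ` semistable,
`Δ ≠ 0`, `W[5]` irreducible, NO transvection in the image of `ρ̄_{W,5}` ⟹ for every field
`k ⊇ 𝔽₅`, `(rb 5 W).baseChange k` is absolutely irreducible and satisfies `IsTWHyp`.

* `habs` = helper90 `HabsW.isAbsolutelyIrreducible_rb_baseChange` (oddness);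
* `hTW`  = `TWComm.isTWHyp_baseChange_of_noncomm` with non-commutativity from helper81's abstract
  core `PrimeToP.not_comm_of_index_two`, whose binders are discharged here:
  `hgen` ⟸ `MinkA.eq_top_of_ker_le_of_inertia_le` (Minkowski), `hcyc` ⟸
  `GP/Loc/TamePQuot.isCyclic_map_inertia_of_isPGroup` (tame inertia, `ℓ = 2`), `hc / hcdet` ⟸
  complex conjugation (`HabsW.det_rb_complexConjugation`), `hdet` ⟸ `det ρ̄ = χ₅` at a Frobenius
  element at `2`.
-/
import Mathlib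
import Fermat.Agent.GE8.Irr2.Stmt
import Fermat.Agent.GE8.Irr2.HabsW
import Fermat.Agent.GE8.Irr2.MinkAPlug
import Fermat.Agent.GE8.Irr2.TWComm
import Fermat.Agent.GE8.Irr2.PrimeToP.GroupCore

set_option autoImplicit false
set_option linter.unusedSectionVars false
set_option linter.unusedVariables false

open WeierstrassCurve WeierstrassCurve.Affine.Point
open scoped WeierstrassCurve.Affine

namespace Fermat.Agent.GE8.Irr2.PrimeToFive

open Fermat.Agent.GB.Setup.RhoBar Fermat.Agent.GB.Def.TWHyp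
open Fermat.Agent.GB.Top.FreyTwo.Transvection
open Fermat.Agent.GE8.Irr2.Transv Fermat.Agent.GE8.Irr2.MinkAPlug Fermat.Agent.Common_helper32

/-- `G_ℚ`. -/
local notation "GQ'" => (AlgebraicClosure ℚ ≃ₐ[ℚ] AlgebraicClosure ℚ)

section

variable {p : ℕ} [Fact p.Prime] {W : WeierstrassCurve ℤ}
  (hcard₁ : Nat.card (Submodule.torsionBy ℤ
    ((W.map (Int.castRingHom ℚ))⁄(AlgebraicClosure ℚ)).Point p) = p ^ 2)
  (hker : GaloisFactorsThroughFiniteLevel
    (galoisRepModuleEnd (K := AlgebraicClosure ℚ) ℚ (W.map (Int.castRingHom ℚ)) p))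

/-- `(rb p W).ρ` is `rhoBar`. -/
theorem rb_rho_eq (σ : GQ') :
    (rb p W hcard₁ hker).ρ σ = rhoBar (W.map (Int.castRingHom ℚ)) p σ := rfl

/-- **`hgen`** (Minkowski) for `rb p W` without transvection. -/
theorem hgen_rb (hss : W.IsSemistableModel) (hΔ : W.Δ ≠ 0)
    (hno : ¬ HasTransvectionModP (W.map (Int.castRingHom ℚ)) p)
    (A : ValuationSubring Qb) (hA : A.LiesOverPrime p) :
    ∀ U : Subgroup GQ', U.Normal → (rb p W hcard₁ hker).ρ.ker ≤ U →
      A.inertiaSubgroupIn ℚ ≤ U → U = ⊤ := by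
  intro U hn hkerU hI
  have hp : p.Prime := Fact.out
  refine Fermat.Agent.GE8.Irr2.MinkA.eq_top_of_ker_le_of_inertia_le
    (rhoR (W.map (Int.castRingHom ℚ)) p) (rhoR_level_W W hΔ hp) A hA (rhoR_unr W hss hΔ hp hno)
    U hn (fun σ hσ => hkerU ?_) hI
  rw [MonoidHom.mem_ker] at hσ ⊢
  exact (rhoR_eq_one_iff _ p σ).1 hσ

/-- **`hcyc`** (tame inertia) for `rb p W`, `p ≠ 2`. -/
theorem hcyc_rb (hp2 : p ≠ 2) (A : ValuationSubring Qb) (hA : A.LiesOverPrime p) :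
    ∀ (H : Type) [Group H] [Finite H] (f : GQ' →* H), (rb p W hcard₁ hker).ρ.ker ≤ f.ker →
      IsPGroup 2 H → IsCyclic ↥((A.inertiaSubgroupIn ℚ).map f) := by
  intro H _ _ f hkerf hH
  have hp : p.Prime := Fact.out
  obtain ⟨L, hL, h⟩ := hker
  refine Fermat.Agent.GP.Loc.TamePQuot.isCyclic_map_inertia_of_isPGroup A hp hA f
    ⟨L, hL, fun σ hσ => ?_⟩ 2 (fun h2 => hp2 h2.symm) (hH.to_subgroup _)
  exact MonoidHom.mem_ker.1 (hkerf (MonoidHom.mem_ker.2 (h σ hσ)))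

/-- `det ρ̄` takes the value `2` (at a Frobenius element at `2`), `p ≠ 2`. -/
theorem exists_det_rb_eq_two (hp2 : p ≠ 2) (hΔ : W.Δ ≠ 0) (hirr : W.ModRepIsIrreducible p) :
    ∃ g : GQ', LinearMap.det ((rb p W hcard₁ hker).ρ g) = 2 := by
  obtain ⟨A, φ, hA, hφ⟩ := exists_isFrobeniusAt 2 Nat.prime_two
  refine ⟨φ, ?_⟩
  rw [HabsW.det_rb hcard₁ hker hΔ hirr φ,
    Fermat.Agent.GJ.CycChar.cyc_frob Nat.prime_two (fun h => hp2 h.symm) hA hφ]
  norm_num

end

/-- **leaf (P5) of E8.6 IRR2**: helper43's `PrimeToFiveStmt`. -/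
theorem primeToFiveStmt [Fact (Nat.Prime 5)] : PrimeToFiveStmt := by
  intro W hΔ hss hirr hno hcard₁ hker k _ _
  have hp5 : Nat.Prime 5 := Fact.out
  refine ⟨HabsW.isAbsolutelyIrreducible_rb_baseChange hcard₁ hker (by norm_num) hΔ hirr k, ?_⟩
  refine Fermat.Agent.GE8.Irr2.TWComm.isTWHyp_baseChange_of_noncomm (rb 5 W hcard₁ hker)
    (fun ⟨σ, h1, h2⟩ => hno ⟨σ, h1, h2⟩) (fun G hG => ?_) k
  obtain ⟨A, hA⟩ := exists_liesOverPrime 5 hp5
  have hnc := Fermat.Agent.GE8.Irr2.PrimeToP.not_comm_of_index_two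
    (rb 5 W hcard₁ hker).ρ (A.inertiaSubgroupIn ℚ) complexConjugation
    (rb 5 W hcard₁ hker).finrank_eq
    (isIrreducible_rb hcard₁ hker hirr)
    (hgen_rb hcard₁ hker hss hΔ hno A hA)
    (hcyc_rb hcard₁ hker (by norm_num) A hA)
    (by rw [← map_mul, complexConjugation_mul_self, map_one])
    (HabsW.det_rb_complexConjugation hcard₁ hker hΔ hirr)
    (exists_det_rb_eq_two hcard₁ hker (by norm_num) hΔ hirr) G (Or.inl hG)
  push Not at hnc
  obtain ⟨a, ha, b, hb, hne⟩ := hnc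
  exact ⟨a, ha, b, hb, hne⟩

end Fermat.Agent.GE8.Irr2.PrimeToFive
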