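/-
GATE-E / E8.6 IRR2, leaf (THREE) of helper43's design (board 6790), helper82.

`ρ : ResidualGaloisRep k`, `2 ≠ 0` in `k`, `det ρ` with values in `{1, -1}` and not identically `1`,
`ρ` restricted to every index-2 subgroup irreducible over every extension (`IsTWHyp`, the frozen
S56 `hTW`).  Then some `σ` has `det ρ(σ) = -1` and `tr ρ(σ) ≠ 0`.

Proof.  Otherwise every element outside `Γ₁ := ker (det ρ)` is an involution (Cayley–Hamilton),
so conjugation by one of them inverts `ρ(Γ₁)`, which is therefore commutative; over the algebraic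
closure a commutative family in dimension 2 has a common proper stable subspace, contradicting
`IsTWHyp` at the index-2 subgroup `Γ₁`.
Mathlib + GB/Def/TWHyp only.
-/
import Mathlib
import Fermat.Agent.GB.Def.TWHyp

set_option autoImplicit false

open scoped TensorProduct

namespace Fermat.Agent.GE8.Irr2.Three

/-- `ℚ̄`. -/
local notation "Qb" => AlgebraicClosure ℚ

section LinAlg

variable {F : Type*} [Field F] {V : Type*} [AddCommGroup V] [Module F V]

open Polynomial in
/-- Cayley–Hamilton in rank 2. -/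
theorem mul_self_eq_of_finrank_two (hV : Module.finrank F V = 2) (u : Module.End F V) :
    u * u = LinearMap.trace F V u • u - LinearMap.det u • (1 : Module.End F V) := by
  have : Module.Finite F V := Module.finite_of_finrank_eq_succ hV
  let b : Module.Basis (Fin 2) F V := Module.finBasisOfFinrankEq F V hV
  have h1 := LinearMap.aeval_self_charpoly u
  have h2 : u.charpoly = X ^ 2 - C (LinearMap.trace F V u) * X + C (LinearMap.det u) := by
    rw [← LinearMap.charpoly_toMatrix u b, Matrix.charpoly_fin_two,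
      LinearMap.trace_eq_matrix_trace F b u, LinearMap.det_toMatrix b u]
  rw [h2] at h1
  simp only [map_add, map_sub, map_mul, map_pow, aeval_X, aeval_C, Algebra.algebraMap_eq_smul_one]
    at h1
  rw [pow_two, smul_mul_assoc, one_mul] at h1
  rw [← sub_eq_zero, ← h1]
  abel

/-- a family of commuting endomorphisms of a plane over an algebraically closed field has a common
stable subspace `≠ ⊥, ⊤`. -/
theorem exists_stable_of_commute [IsAlgClosed F] (hV : Module.finrank F V = 2)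
    (S : Set (Module.End F V)) (hS : ∀ a ∈ S, ∀ b ∈ S, a * b = b * a) :
    ∃ W : Submodule F V, W ≠ ⊥ ∧ W ≠ ⊤ ∧ ∀ a ∈ S, ∀ x ∈ W, a x ∈ W := by
  have : Module.Finite F V := Module.finite_of_finrank_eq_succ hV
  have hnt : Nontrivial V := Module.nontrivial_of_finrank_pos (R := F) (by omega)
  by_cases hsc : ∀ a ∈ S, ∃ c : F, a = c • (1 : Module.End F V)
  · obtain ⟨v, hv⟩ := exists_ne (0 : V)
    refine ⟨Submodule.span F {v}, ?_, ?_, ?_⟩
    · rw [Ne, Submodule.span_singleton_eq_bot]; exact hv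
    · intro h
      have h1 : Module.finrank F (Submodule.span F {v}) = 1 := finrank_span_singleton hv
      rw [h, finrank_top, hV] at h1
      omega
    · intro a ha x hx
      obtain ⟨c, rfl⟩ := hsc a ha
      rw [LinearMap.smul_apply, Module.End.one_apply]
      exact Submodule.smul_mem _ _ hx
  · push Not at hsc
    obtain ⟨f, hfS, hf⟩ := hsc
    obtain ⟨μ, hμ⟩ := Module.End.exists_eigenvalue f
    refine ⟨Module.End.eigenspace f μ, hμ, ?_, ?_⟩
    · intro h
      apply hf μ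
      ext x
      have hx : x ∈ Module.End.eigenspace f μ := by rw [h]; trivial
      rw [Module.End.mem_eigenspace_iff] at hx
      rw [hx, LinearMap.smul_apply, Module.End.one_apply]
    · intro a ha x hx
      rw [Module.End.mem_eigenspace_iff] at hx ⊢
      have h1 : f (a x) = a (f x) := by
        rw [← Module.End.mul_apply, ← Module.End.mul_apply, hS f hfS a ha]
      rw [h1, hx, map_smul]

end LinAlg

section Group

variable {G : Type*} [Group G]

/-- if `a`, `a x`, `a y`, `a x y` are involutions then `x` and `y` commute. -/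
theorem commute_of_involutions {a x y : G} (ha : a * a = 1) (hx : (a * x) * (a * x) = 1)
    (hy : (a * y) * (a * y) = 1) (hxy : (a * (x * y)) * (a * (x * y)) = 1) : x * y = y * x := by
  have ha' : a⁻¹ = a := inv_eq_of_mul_eq_one_right ha
  have hx' : x⁻¹ = a * x * a := by
    apply inv_eq_of_mul_eq_one_right
    calc x * (a * x * a) = a⁻¹ * ((a * x) * (a * x)) * a := by group
      _ = 1 := by rw [hx, ha']; group; exact ha
  have hy' : y⁻¹ = a * y * a := by
    apply inv_eq_of_mul_eq_one_right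
    calc y * (a * y * a) = a⁻¹ * ((a * y) * (a * y)) * a := by group
      _ = 1 := by rw [hy, ha']; group; exact ha
  have hxy' : (x * y)⁻¹ = a * (x * y) * a := by
    apply inv_eq_of_mul_eq_one_right
    calc (x * y) * (a * (x * y) * a) = a⁻¹ * ((a * (x * y)) * (a * (x * y))) * a := by group
      _ = 1 := by rw [hxy, ha']; group; exact ha
  have h1 : (x * y)⁻¹ = x⁻¹ * y⁻¹ := by
    rw [hxy', hx', hy']
    calc a * (x * y) * a = a * x * (a * a) * y * a := by rw [ha]; group
      _ = a * x * a * (a * y * a) := by group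
  have h2 : (x * y)⁻¹ = (y * x)⁻¹ := by rw [h1, mul_inv_rev]
  exact inv_injective h2

end Group

section Main

variable {k : Type} [Field k]

open Fermat.Agent.GB.Def.TWHyp

/-- **(THREE)**: under `IsTWHyp`, if `det ρ` has values in `{1, -1}` and takes the value `-1`, then
some `σ` has `det ρ(σ) = -1` and `tr ρ(σ) ≠ 0`. -/
theorem exists_det_neg_one_trace_ne_zero (h2 : (2 : k) ≠ 0) (ρ : ResidualGaloisRep k)
    (hTW : IsTWHyp ρ) (hex : ∃ σ₁ : Qb ≃ₐ[ℚ] Qb, LinearMap.det (ρ.ρ σ₁) = -1)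
    (hdet : ∀ σ : Qb ≃ₐ[ℚ] Qb, LinearMap.det (ρ.ρ σ) = 1 ∨ LinearMap.det (ρ.ρ σ) = -1) :
    ∃ σ : Qb ≃ₐ[ℚ] Qb, LinearMap.det (ρ.ρ σ) = -1 ∧ LinearMap.trace k ρ.V (ρ.ρ σ) ≠ 0 := by
  by_contra hcon
  push Not at hcon
  obtain ⟨g, hg⟩ := hex
  have hne : (-1 : k) ≠ 1 := by
    intro h
    apply h2
    have h3 : (2 : k) = 1 - (-1) := by ring
    rw [h3, h, sub_self]
  -- the determinant character and its kernel
  let d : (Qb ≃ₐ[ℚ] Qb) →* k := (LinearMap.det : Module.End k ρ.V →* k).comp ρ.ρ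
  have hd : ∀ σ, d σ = LinearMap.det (ρ.ρ σ) := fun σ => rfl
  let Γ₁ : Subgroup (Qb ≃ₐ[ℚ] Qb) := d.ker
  have hmem : ∀ σ, σ ∈ Γ₁ ↔ LinearMap.det (ρ.ρ σ) = 1 := fun σ => MonoidHom.mem_ker
  have hindex : Γ₁.index = 2 := by
    rw [Subgroup.index_eq_two_iff]
    refine ⟨g, fun b => ?_⟩
    have hbg : LinearMap.det (ρ.ρ (b * g)) = -LinearMap.det (ρ.ρ b) := by
      rw [map_mul, map_mul, hg, mul_neg_one]
    rw [hmem, hmem, hbg]
    rcases hdet b with hb | hb
    · right
      refine ⟨hb, ?_⟩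
      rw [hb]; exact hne
    · left
      refine ⟨by rw [hb, neg_neg], ?_⟩
      rw [hb]; exact hne
  -- work in the group of units
  let r : (Qb ≃ₐ[ℚ] Qb) →* (Module.End k ρ.V)ˣ := ρ.ρ.toHomUnits
  have hr : ∀ σ, ((r σ : (Module.End k ρ.V)ˣ) : Module.End k ρ.V) = ρ.ρ σ := fun σ => rfl
  have hinv : ∀ σ, LinearMap.det (ρ.ρ σ) = -1 → r σ * r σ = 1 := by
    intro σ hσ
    apply Units.ext
    rw [Units.val_mul, Units.val_one, hr, mul_self_eq_of_finrank_two ρ.finrank_eq, hcon σ hσ, hσ,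
      zero_smul, zero_sub, neg_smul, neg_neg, one_smul]
  have hdetmul : ∀ h ∈ Γ₁, LinearMap.det (ρ.ρ (g * h)) = -1 := by
    intro h hh
    rw [map_mul, map_mul, hg, (hmem h).mp hh, mul_one]
  have hcomm : ∀ h₁ ∈ Γ₁, ∀ h₂ ∈ Γ₁, ρ.ρ h₁ * ρ.ρ h₂ = ρ.ρ h₂ * ρ.ρ h₁ := by
    intro h₁ hh₁ h₂ hh₂
    have h3 : r h₁ * r h₂ = r h₂ * r h₁ := by
      refine commute_of_involutions (a := r g) (hinv g hg) ?_ ?_ ?_
      · rw [← map_mul]; exact hinv _ (hdetmul h₁ hh₁)
      · rw [← map_mul]; exact hinv _ (hdetmul h₂ hh₂)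
      · rw [← map_mul, ← map_mul]; exact hinv _ (hdetmul _ (Γ₁.mul_mem hh₁ hh₂))
    have h4 := congrArg (fun u : (Module.End k ρ.V)ˣ => (u : Module.End k ρ.V)) h3
    simpa only [Units.val_mul, hr] using h4
  -- base change to the algebraic closure
  let K := AlgebraicClosure k
  let bc := Module.End.baseChangeHom k K ρ.V
  have hρK : ∀ σ, (ρ.baseChange K).ρ σ = bc (ρ.ρ σ) := fun σ => rfl
  obtain ⟨W, hW0, hW1, hWst⟩ := exists_stable_of_commute (ρ.baseChange K).finrank_eq
    {a | ∃ h ∈ Γ₁, a = (ρ.baseChange K).ρ h} (by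
      rintro _ ⟨h₁, hh₁, rfl⟩ _ ⟨h₂, hh₂, rfl⟩
      rw [hρK, hρK, ← map_mul bc, ← map_mul bc, hcomm h₁ hh₁ h₂ hh₂])
  rcases hTW K Γ₁ hindex W (fun σ hσ x hx => hWst _ ⟨σ, hσ, rfl⟩ x hx) with h | h
  · exact hW0 h
  · exact hW1 h

/-- **(THREE)** over `𝔽₃`: the hypothesis `det ∈ {1, -1}` is automatic. -/
theorem exists_det_neg_one_trace_ne_zero_three (ρ : ResidualGaloisRep (ZMod 3))
    (hTW : IsTWHyp ρ) (hex : ∃ σ₁ : Qb ≃ₐ[ℚ] Qb, LinearMap.det (ρ.ρ σ₁) = -1) :
    ∃ σ : Qb ≃ₐ[ℚ] Qb, LinearMap.det (ρ.ρ σ) = -1 ∧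
      LinearMap.trace (ZMod 3) ρ.V (ρ.ρ σ) ≠ 0 := by
  refine exists_det_neg_one_trace_ne_zero (by decide) ρ hTW hex fun σ => ?_
  have h1 : LinearMap.det (ρ.ρ σ) * LinearMap.det (ρ.ρ σ⁻¹) = 1 := by
    rw [← map_mul, ← map_mul, mul_inv_cancel, map_one, map_one]
  have h0 : LinearMap.det (ρ.ρ σ) ≠ 0 := left_ne_zero_of_mul_eq_one h1
  have key : ∀ x : ZMod 3, x ≠ 0 → x = 1 ∨ x = -1 := by decide
  exact key _ h0

end Main

end Fermat.Agent.GE8.Irr2.Three
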